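import Fermat.Agent.ECVal.QVal
import Fermat.Agent.Minkowski.Inertia

/-!
# The rank one valuation attached to a valuation subring of an algebraic extension of `ℚ`
-/

set_option autoImplicit false

namespace FermatAgent.ECVal

section algebra

variable {K : Type*} [Field K] {Γ₀ : Type*} [LinearOrderedCommGroupWithZero Γ₀]
  (v : Valuation K Γ₀)

/-- In a vanishing sum, two nonzero terms have the same valuation. -/
lemma exists_pair_of_sum_eq_zero {ι : Type*} {s : Finset ι} {f : ι → K}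
    (hsum : ∑ i ∈ s, f i = 0) (hne : ∃ i ∈ s, f i ≠ 0) :
    ∃ i ∈ s, ∃ j ∈ s, i ≠ j ∧ v (f i) = v (f j) ∧ f i ≠ 0 ∧ f j ≠ 0 := by
  classical
  obtain ⟨i₀, hi₀, hfi₀⟩ := hne
  obtain ⟨i, hi, hmax⟩ := s.exists_max_image (fun i => v (f i)) ⟨i₀, hi₀⟩
  have hi0 : v (f i) ≠ 0 := by
    intro h
    have := hmax i₀ hi₀
    rw [h] at this
    exact hfi₀ ((Valuation.zero_iff v).mp (le_antisymm this zero_le))
  by_contra hcon
  push Not at hcon
  have hlt : ∀ j ∈ s \ {i}, v (f j) < v (f i) := by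
    intro j hj
    rw [Finset.mem_sdiff, Finset.mem_singleton] at hj
    refine lt_of_le_of_ne (hmax j hj.1) ?_
    intro heq
    have h1 : f i ≠ 0 := fun h => hi0 (by rw [h, map_zero])
    have h2 := hcon i hi j hj.1 (Ne.symm hj.2) heq.symm h1
    rw [h2, map_zero] at heq
    exact hi0 heq.symm
  have := Valuation.map_sum_eq_of_lt v hi hlt
  rw [hsum, map_zero] at this
  exact hi0 this.symm

/-- Values of algebraic elements are torsion modulo the values of the base field. -/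
lemma exists_pow_eq_of_isAlgebraic {F : Type*} [Field F] [Algebra F K] {x : K} (hx : x ≠ 0)
    (hxa : IsAlgebraic F x) :
    ∃ n : ℕ, 0 < n ∧ ∃ c : F, c ≠ 0 ∧ v x ^ n = v (algebraMap F K c) := by
  obtain ⟨p, hp0, hp⟩ := hxa
  rw [Polynomial.aeval_eq_sum_range] at hp
  have hne : ∃ i ∈ Finset.range (p.natDegree + 1), p.coeff i • x ^ i ≠ 0 := by
    refine ⟨p.natDegree, by simp, ?_⟩
    rw [Algebra.smul_def]
    refine mul_ne_zero ?_ (pow_ne_zero _ hx)
    rw [Ne, map_eq_zero]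
    exact Polynomial.leadingCoeff_ne_zero.mpr hp0
  obtain ⟨i, hi, j, hj, hij, hv, hi0, hj0⟩ := exists_pair_of_sum_eq_zero v hp hne
  have key : ∀ i j : ℕ, i < j → v (p.coeff i • x ^ i) = v (p.coeff j • x ^ j) →
      p.coeff i • x ^ i ≠ 0 → p.coeff j • x ^ j ≠ 0 →
      ∃ n : ℕ, 0 < n ∧ ∃ c : F, c ≠ 0 ∧ v x ^ n = v (algebraMap F K c) := by
    intro i j hij hv hi0 hj0
    have hci : p.coeff i ≠ 0 := fun h => hi0 (by rw [h, zero_smul])
    have hcj : p.coeff j ≠ 0 := fun h => hj0 (by rw [h, zero_smul])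
    refine ⟨j - i, Nat.sub_pos_of_lt hij, p.coeff i / p.coeff j, div_ne_zero hci hcj, ?_⟩
    rw [Algebra.smul_def, Algebra.smul_def, map_mul, map_mul, map_pow, map_pow] at hv
    rw [map_div₀, map_div₀]
    have hvx : v x ≠ 0 := (Valuation.ne_zero_iff v).mpr hx
    have hvj : v (algebraMap F K (p.coeff j)) ≠ 0 := by
      rw [Valuation.ne_zero_iff, Ne, map_eq_zero]; exact hcj
    rw [eq_div_iff hvj]
    have h1 : v x ^ j = v x ^ (j - i) * v x ^ i := by
      rw [← pow_add, Nat.sub_add_cancel hij.le]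
    rw [h1] at hv
    have hvxi : v x ^ i ≠ 0 := pow_ne_zero _ hvx
    apply mul_right_cancel₀ hvxi
    rw [hv, mul_comm (v x ^ (j - i)), mul_assoc]
  rcases lt_or_gt_of_ne hij with h | h
  · exact key i j h hv hi0 hj0
  · exact key j i h hv.symm hj0 hi0

end algebra

section rat

variable {K : Type*} [Field K] {Γ₀ : Type*} [LinearOrderedCommGroupWithZero Γ₀]
  (v : Valuation K Γ₀) {q : ℕ}

lemma val_natCast_le (n : ℕ) : v (n : K) ≤ 1 := by
  have : ((n : v.integer) : K) = n := by push_cast; rfl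
  rw [← this]; exact (n : v.integer).2

lemma val_intCast_le (n : ℤ) : v (n : K) ≤ 1 := by
  have : ((n : v.integer) : K) = n := by push_cast; rfl
  rw [← this]; exact (n : v.integer).2

lemma val_intCast_eq_one (hq : q.Prime) (hv : v (q : K) < 1) {n : ℤ} (hn : ¬ (q : ℤ) ∣ n) :
    v (n : K) = 1 := by
  refine le_antisymm (val_intCast_le v n) ?_
  by_contra hcon
  rw [not_le] at hcon
  have hcop : IsCoprime (q : ℤ) n :=
    (Nat.prime_iff_prime_int.mp hq).coprime_iff_not_dvd.mpr hn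
  obtain ⟨a, b, hab⟩ := hcop
  have h1 : ((a * q + b * n : ℤ) : K) = 1 := by rw [hab]; simp
  have h2 : v (1 : K) < 1 := by
    rw [← h1]
    push_cast
    refine (v.map_add _ _).trans_lt (max_lt ?_ ?_)
    · rw [map_mul]
      exact (mul_le_of_le_one_left' (val_intCast_le v a)).trans_lt hv
    · rw [map_mul]
      exact (mul_le_of_le_one_left' (val_intCast_le v b)).trans_lt hcon
  rw [map_one] at h2
  exact lt_irrefl _ h2

lemma val_natCast_eq (hq : q.Prime) (hv : v (q : K) < 1) {n : ℕ} (hn : n ≠ 0) :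
    v (n : K) = v (q : K) ^ (padicValNat q n) := by
  have : Fact q.Prime := ⟨hq⟩
  obtain ⟨e, n', hn', he⟩ := Nat.exists_eq_pow_mul_and_not_dvd hn q hq.ne_one
  have h1 : padicValNat q n = e := by
    rw [he, padicValNat.mul (pow_ne_zero _ hq.ne_zero) (by rintro rfl; simp at he; exact hn he),
      padicValNat.prime_pow, padicValNat.eq_zero_of_not_dvd hn', add_zero]
  rw [h1, he]
  push_cast
  rw [map_mul, map_pow]
  have h2 : v ((n' : ℤ) : K) = 1 := val_intCast_eq_one v hq hv (by exact_mod_cast hn')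
  rw [Int.cast_natCast] at h2
  rw [h2, mul_one]

lemma val_ratCast_eq [CharZero K] (hq : q.Prime) (hv : v (q : K) < 1) {r : ℚ} (hr : r ≠ 0) :
    v (r : K) = v (q : K) ^ (padicValRat q r) := by
  have : Fact q.Prime := ⟨hq⟩
  have hnum : r.num.natAbs ≠ 0 := by
    rw [Ne, Int.natAbs_eq_zero, Rat.num_eq_zero]; exact hr
  have h1 : v ((r.num : ℤ) : K) = v (q : K) ^ (padicValNat q r.num.natAbs) := by
    rw [← val_natCast_eq v hq hv hnum]
    rcases Int.natAbs_eq r.num with h | h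
    · conv_lhs => rw [h]
      rw [Int.cast_natCast]
    · conv_lhs => rw [h]
      rw [Int.cast_neg, Int.cast_natCast, Valuation.map_neg]
  have h2 := val_natCast_eq v hq hv r.den_ne_zero
  have h3 : (r : K) = (r.num : K) / (r.den : K) := by
    rw [Rat.cast_def]
  have hvq : v (q : K) ≠ 0 := by
    rw [Valuation.ne_zero_iff]; exact_mod_cast hq.ne_zero
  rw [h3, map_div₀, h1, h2, padicValRat, zpow_sub₀ hvq]
  simp [padicValInt]

end rat

/-! ### Construction of the `ℚ`-valued valuation -/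

section construction

variable {K : Type*} [Field K] [Algebra ℚ K] [Algebra.IsAlgebraic ℚ K]
  {Γ₀ : Type*} [LinearOrderedCommGroupWithZero Γ₀] (v : Valuation K Γ₀) {q : ℕ}

lemma exists_pow_eq_zpow (hq : q.Prime) (hv : v (q : K) < 1) {x : K} (hx : x ≠ 0) :
    ∃ n : ℕ, 0 < n ∧ ∃ m : ℤ, v x ^ n = v (q : K) ^ m := by
  have : CharZero K := algebraRat.charZero K
  obtain ⟨n, hn, c, hc, h⟩ := exists_pow_eq_of_isAlgebraic v (F := ℚ) hx
    (Algebra.IsAlgebraic.isAlgebraic x)
  refine ⟨n, hn, padicValRat q c, ?_⟩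
  rw [h, ← val_ratCast_eq v hq hv hc, eq_ratCast]

lemma zpow_lt_zpow_iff' {g : Γ₀} (h0 : g ≠ 0) (h1 : g < 1) {m n : ℤ} : g ^ m < g ^ n ↔ n < m :=
  (zpow_right_strictAnti₀ (zero_lt_iff.mpr h0) h1).lt_iff_gt

lemma zpow_le_zpow_iff' {g : Γ₀} (h0 : g ≠ 0) (h1 : g < 1) {m n : ℤ} : g ^ m ≤ g ^ n ↔ n ≤ m :=
  (zpow_right_strictAnti₀ (zero_lt_iff.mpr h0) h1).le_iff_ge

/-- The value as a rational number. -/
noncomputable def qval (hq : q.Prime) (hv : v (q : K) < 1) (x : K) : ℚ :=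
  open scoped Classical in
  if hx : x = 0 then 0 else
    ((exists_pow_eq_zpow v hq hv hx).choose_spec.2.choose : ℚ) /
      ((exists_pow_eq_zpow v hq hv hx).choose : ℚ)

/-- The defining property. -/
lemma qval_spec (hq : q.Prime) (hv : v (q : K) < 1) {x : K} (hx : x ≠ 0) :
    ∃ n : ℕ, 0 < n ∧ ∃ m : ℤ, v x ^ n = v (q : K) ^ m ∧ qval v hq hv x = (m : ℚ) / n := by
  refine ⟨_, (exists_pow_eq_zpow v hq hv hx).choose_spec.1, _,
    (exists_pow_eq_zpow v hq hv hx).choose_spec.2.choose_spec, ?_⟩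
  rw [qval, dif_neg hx]

lemma qval_le_iff (hq : q.Prime) (hv : v (q : K) < 1) {x y : K} (hx : x ≠ 0) (hy : y ≠ 0) :
    qval v hq hv y ≤ qval v hq hv x ↔ v x ≤ v y := by
  have : CharZero K := algebraRat.charZero K
  have hg0 : v (q : K) ≠ 0 := by
    rw [Valuation.ne_zero_iff]; exact_mod_cast hq.ne_zero
  obtain ⟨n, hn, m, h, he⟩ := qval_spec v hq hv hx
  obtain ⟨n', hn', m', h', he'⟩ := qval_spec v hq hv hy
  rw [he, he', div_le_div_iff₀ (by exact_mod_cast hn') (by exact_mod_cast hn)]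
  have h1 : v x ≤ v y ↔ v x ^ (n * n') ≤ v y ^ (n * n') :=
    (pow_le_pow_iff_left₀ zero_le zero_le (Nat.mul_pos hn hn').ne').symm
  rw [h1, pow_mul, h, mul_comm n n', pow_mul, h', ← zpow_natCast, ← zpow_natCast, ← zpow_mul,
    ← zpow_mul, zpow_le_zpow_iff' hg0 hv]
  exact_mod_cast Iff.rfl

lemma qval_eq_of_pow_eq (hq : q.Prime) (hv : v (q : K) < 1) {x : K} (hx : x ≠ 0) {n : ℕ}
    (hn : 0 < n) {m : ℤ} (h : v x ^ n = v (q : K) ^ m) : qval v hq hv x = (m : ℚ) / n := by
  have : CharZero K := algebraRat.charZero K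
  have hg0 : v (q : K) ≠ 0 := by
    rw [Valuation.ne_zero_iff]; exact_mod_cast hq.ne_zero
  obtain ⟨n', hn', m', h', he'⟩ := qval_spec v hq hv hx
  rw [he', div_eq_div_iff (by exact_mod_cast hn'.ne') (by exact_mod_cast hn.ne')]
  have h1 : v (q : K) ^ (m * n') = v (q : K) ^ (m' * n) := by
    rw [zpow_mul, zpow_mul, ← h, ← h', zpow_natCast, zpow_natCast, ← pow_mul, ← pow_mul,
      mul_comm]
  have h2 : m * n' = m' * n :=
    (zpow_right_strictAnti₀ (zero_lt_iff.mpr hg0) hv).injective h1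
  exact_mod_cast h2.symm

/-- The `ℚ`-valued valuation, normalised by `val q = 1`. -/
noncomputable def qVal (hq : q.Prime) (hv : v (q : K) < 1) : QVal K where
  val := qval v hq hv
  val_mul' := by
    intro x y hx hy
    obtain ⟨n, hn, m, h, he⟩ := qval_spec v hq hv hx
    obtain ⟨n', hn', m', h', he'⟩ := qval_spec v hq hv hy
    have hg0 : v (q : K) ≠ 0 := by
      have : CharZero K := algebraRat.charZero K
      rw [Valuation.ne_zero_iff]; exact_mod_cast hq.ne_zero
    rw [he, he', qval_eq_of_pow_eq v hq hv (mul_ne_zero hx hy) (Nat.mul_pos hn hn')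
      (m := m * n' + m' * n)]
    · have h1 : (n : ℚ) ≠ 0 := by exact_mod_cast hn.ne'
      have h2 : (n' : ℚ) ≠ 0 := by exact_mod_cast hn'.ne'
      push_cast
      field_simp
    · rw [map_mul, mul_pow, pow_mul, h, mul_comm n n', pow_mul, h', zpow_add₀ hg0, zpow_mul,
        zpow_mul, zpow_natCast, zpow_natCast]
  val_add' := by
    intro x y hx hy hxy
    rcases le_max_iff.mp (v.map_add x y) with h | h
    · exact (min_le_left _ _).trans ((qval_le_iff v hq hv hxy hx).mpr h)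
    · exact (min_le_right _ _).trans ((qval_le_iff v hq hv hxy hy).mpr h)

lemma qVal_ge_iff (hq : q.Prime) (hv : v (q : K) < 1) {x y : K} (hy : y ≠ 0) :
    (qVal v hq hv).Ge ((qVal v hq hv).val y) x ↔ v x ≤ v y := by
  by_cases hx : x = 0
  · subst hx
    simp [QVal.Ge]
  · have : (qVal v hq hv).Ge ((qVal v hq hv).val y) x ↔ qval v hq hv y ≤ qval v hq hv x := by
      unfold QVal.Ge
      exact ⟨fun h => h.resolve_left hx, Or.inr⟩
    rw [this, qval_le_iff v hq hv hx hy]

lemma qVal_gt_iff (hq : q.Prime) (hv : v (q : K) < 1) {x y : K} (hy : y ≠ 0) :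
    (qVal v hq hv).Gt ((qVal v hq hv).val y) x ↔ v x < v y := by
  by_cases hx : x = 0
  · subst hx
    have : 0 < v y := by rw [zero_lt_iff, Valuation.ne_zero_iff]; exact hy
    simp [QVal.Gt, this]
  · have : (qVal v hq hv).Gt ((qVal v hq hv).val y) x ↔ qval v hq hv y < qval v hq hv x := by
      unfold QVal.Gt
      exact ⟨fun h => h.resolve_left hx, Or.inr⟩
    rw [this, ← not_le, qval_le_iff v hq hv hy hx, not_le]

lemma qVal_ge_zero_iff (hq : q.Prime) (hv : v (q : K) < 1) {x : K} :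
    (qVal v hq hv).Ge 0 x ↔ v x ≤ 1 := by
  have := qVal_ge_iff v hq hv (x := x) (one_ne_zero (α := K))
  rwa [QVal.val_one, map_one] at this

lemma qVal_gt_zero_iff (hq : q.Prime) (hv : v (q : K) < 1) {x : K} :
    (qVal v hq hv).Gt 0 x ↔ v x < 1 := by
  have := qVal_gt_iff v hq hv (x := x) (one_ne_zero (α := K))
  rwa [QVal.val_one, map_one] at this

lemma qVal_ratCast (hq : q.Prime) (hv : v (q : K) < 1) {r : ℚ} (hr : r ≠ 0) :
    (qVal v hq hv).Is (padicValRat q r) (algebraMap ℚ K r) := by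
  have : CharZero K := algebraRat.charZero K
  have hr' : algebraMap ℚ K r ≠ 0 := by rw [Ne, map_eq_zero]; exact hr
  refine ⟨hr', ?_⟩
  change qval v hq hv _ = _
  rw [qval_eq_of_pow_eq v hq hv hr' (n := 1) (m := padicValRat q r) one_pos]
  · simp
  · rw [pow_one, eq_ratCast, val_ratCast_eq v hq hv hr]

lemma qVal_prime (hq : q.Prime) (hv : v (q : K) < 1) : (qVal v hq hv).Is 1 (q : K) := by
  have : Fact q.Prime := ⟨hq⟩
  have h := qVal_ratCast v hq hv (r := (q : ℚ)) (by exact_mod_cast hq.ne_zero)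
  rw [map_natCast, padicValRat.self hq.one_lt] at h
  exact_mod_cast h

end construction

section inertia

variable {K : Type*} [Field K] [Algebra ℚ K] [Algebra.IsAlgebraic ℚ K]
  {A : ValuationSubring K} {q : ℕ}

omit [Algebra ℚ K] [Algebra.IsAlgebraic ℚ K] in
lemma lt_one_of_liesOver (hA : A.LiesOverPrime q) : A.valuation (q : K) < 1 :=
  (A.mem_nonunits_iff).mp hA

/-- The normalised `ℚ`-valued valuation attached to a valuation subring above `q`. -/
noncomputable def valOf (hq : q.Prime) (hA : A.LiesOverPrime q) : QVal K :=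
  qVal A.valuation hq (lt_one_of_liesOver hA)

variable (hq : q.Prime) (hA : A.LiesOverPrime q)

lemma valOf_ge_zero_iff {x : K} : (valOf hq hA).Ge 0 x ↔ x ∈ A := by
  rw [valOf, qVal_ge_zero_iff, A.valuation_le_one_iff]

lemma valOf_gt_zero_iff {x : K} : (valOf hq hA).Gt 0 x ↔ x ∈ A.nonunits := by
  rw [valOf, qVal_gt_zero_iff, A.mem_nonunits_iff]

lemma valOf_ratCast {r : ℚ} (hr : r ≠ 0) :
    (valOf hq hA).Is (padicValRat q r) (algebraMap ℚ K r) :=
  qVal_ratCast _ hq _ hr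

lemma valOf_prime : (valOf hq hA).Is 1 (q : K) := qVal_prime _ hq _

/-- inertia moves elements of valuation `≥ m` (`m` an integer) by elements of valuation `> m`. -/
lemma valOf_inertia {σ : K ≃ₐ[ℚ] K} (hσ : σ ∈ A.inertiaSubgroupIn ℚ) {m : ℤ} {x : K}
    (hx : (valOf hq hA).Ge m x) : (valOf hq hA).Gt m (σ x - x) := by
  have hp := valOf_prime hq hA
  have hpm : (valOf hq hA).Is m ((q : K) ^ m) := by
    obtain ⟨n, rfl | rfl⟩ := m.eq_nat_or_neg
    · rw [zpow_natCast]
      exact (hp.pow n).congr (by push_cast; ring)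
    · rw [zpow_neg, zpow_natCast]
      exact ((hp.pow n).inv).congr (by push_cast; ring)
  have h1 : (valOf hq hA).Ge 0 (((q : K) ^ m)⁻¹ * x) :=
    (hpm.inv.ge.mul hx).mono (by linarith)
  rw [valOf_ge_zero_iff] at h1
  obtain ⟨-, h2⟩ := Fermat.Agent.Minkowski.sub_mem_nonunits_of_mem_inertia hσ h1
  rw [← valOf_gt_zero_iff hq hA, map_mul, map_inv₀, map_zpow₀, map_natCast] at h2
  have h3 := hpm.ge.mul_gt h2
  have h4 : (q : K) ^ m * (((q : K) ^ m)⁻¹ * σ x - ((q : K) ^ m)⁻¹ * x) = σ x - x := by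
    have := hpm.1
    field_simp
  rw [h4, add_zero] at h3
  exact h3

end inertia

/-- The `p`-adic valuation on `ℚ`. -/
noncomputable def ratVal (p : ℕ) [hp : Fact p.Prime] : QVal ℚ where
  val r := (padicValRat p r : ℚ)
  val_mul' x y hx hy := by rw [padicValRat.mul hx hy]; push_cast; rfl
  val_add' x y hx hy hxy := by exact_mod_cast padicValRat.min_le_padicValRat_add hxy

end FermatAgent.ECVal
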