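import Mathlib

/-!
# `ℚ`-valued additive valuations

A light-weight structure for rank one valuations with values in `ℚ`, tailored to `linarith`.
`w.Ge r x` means `v(x) ≥ r`, `w.Gt r x` means `v(x) > r`, `w.Is r x` means `v(x) = r` (and `x ≠ 0`).
-/

set_option autoImplicit false

namespace FermatAgent.ECVal

/-- An additive valuation with values in `ℚ` (the value at `0` is junk). -/
structure QVal (K : Type*) [Field K] where
  /-- the valuation -/
  val : K → ℚ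
  val_mul' : ∀ x y : K, x ≠ 0 → y ≠ 0 → val (x * y) = val x + val y
  val_add' : ∀ x y : K, x ≠ 0 → y ≠ 0 → x + y ≠ 0 → min (val x) (val y) ≤ val (x + y)

namespace QVal

variable {K : Type*} [Field K] (w : QVal K)

/-- `v(x) ≥ r` -/
def Ge (r : ℚ) (x : K) : Prop := x = 0 ∨ r ≤ w.val x

/-- `v(x) > r` -/
def Gt (r : ℚ) (x : K) : Prop := x = 0 ∨ r < w.val x

/-- `x ≠ 0` and `v(x) = r` -/
def Is (r : ℚ) (x : K) : Prop := x ≠ 0 ∧ w.val x = r

variable {w}

lemma val_one : w.val 1 = 0 := by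
  have := w.val_mul' 1 1 one_ne_zero one_ne_zero
  rw [mul_one] at this
  linarith

lemma val_neg_one : w.val (-1) = 0 := by
  have h := w.val_mul' (-1) (-1) (neg_ne_zero.mpr one_ne_zero) (neg_ne_zero.mpr one_ne_zero)
  rw [neg_mul_neg, mul_one, val_one] at h
  linarith

lemma val_neg {x : K} (hx : x ≠ 0) : w.val (-x) = w.val x := by
  have h := w.val_mul' (-1) x (neg_ne_zero.mpr one_ne_zero) hx
  rw [neg_one_mul, val_neg_one, zero_add] at h
  exact h

lemma Is.of_ne {x : K} (hx : x ≠ 0) : w.Is (w.val x) x := ⟨hx, rfl⟩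

lemma is_one : w.Is 0 1 := ⟨one_ne_zero, val_one⟩

lemma Is.ge {r : ℚ} {x : K} (h : w.Is r x) : w.Ge r x := Or.inr h.2.ge

lemma Is.gt {r s : ℚ} {x : K} (h : w.Is r x) (hs : s < r) : w.Gt s x :=
  Or.inr (by rw [h.2]; exact hs)

lemma Is.congr {r s : ℚ} {x : K} (h : w.Is r x) (hs : r = s) : w.Is s x := hs ▸ h

lemma Ge.mono {r s : ℚ} {x : K} (h : w.Ge r x) (hs : s ≤ r) : w.Ge s x :=
  h.imp id (fun h => hs.trans h)

lemma Gt.mono {r s : ℚ} {x : K} (h : w.Gt r x) (hs : s ≤ r) : w.Gt s x :=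
  h.imp id (fun h => hs.trans_lt h)

lemma Gt.ge {r : ℚ} {x : K} (h : w.Gt r x) : w.Ge r x := h.imp id (fun h => h.le)

lemma Ge.gt {r s : ℚ} {x : K} (h : w.Ge r x) (hs : s < r) : w.Gt s x :=
  h.imp id (fun h => hs.trans_le h)

lemma ge_zero (r : ℚ) : w.Ge r (0 : K) := Or.inl rfl

lemma gt_zero (r : ℚ) : w.Gt r (0 : K) := Or.inl rfl

lemma not_gt_iff {r : ℚ} {x : K} : ¬ w.Gt r x ↔ x ≠ 0 ∧ w.val x ≤ r := by
  unfold Gt; push Not; rfl

lemma not_ge_iff {r : ℚ} {x : K} : ¬ w.Ge r x ↔ x ≠ 0 ∧ w.val x < r := by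
  unfold Ge; push Not; rfl

lemma Is.not_gt {r s : ℚ} {x : K} (h : w.Is r x) (hs : r ≤ s) : ¬ w.Gt s x := by
  rw [not_gt_iff]; exact ⟨h.1, h.2.le.trans hs⟩

lemma Is.le_of_ge {r s : ℚ} {x : K} (h : w.Is r x) (h' : w.Ge s x) : s ≤ r := by
  rcases h' with h' | h'
  · exact absurd h' h.1
  · rw [h.2] at h'; exact h'

lemma Is.lt_of_gt {r s : ℚ} {x : K} (h : w.Is r x) (h' : w.Gt s x) : s < r := by
  rcases h' with h' | h'
  · exact absurd h' h.1
  · rw [h.2] at h'; exact h'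

lemma Is.unique {r s : ℚ} {x : K} (h : w.Is r x) (h' : w.Is s x) : r = s := by
  rw [← h.2, h'.2]

lemma Is.neg {r : ℚ} {x : K} (h : w.Is r x) : w.Is r (-x) :=
  ⟨neg_ne_zero.mpr h.1, by rw [val_neg h.1]; exact h.2⟩

lemma Ge.neg {r : ℚ} {x : K} (h : w.Ge r x) : w.Ge r (-x) := by
  by_cases hx : x = 0
  · left; rw [hx, neg_zero]
  · right; rw [val_neg hx]; exact h.resolve_left hx

lemma Gt.neg {r : ℚ} {x : K} (h : w.Gt r x) : w.Gt r (-x) := by
  by_cases hx : x = 0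
  · left; rw [hx, neg_zero]
  · right; rw [val_neg hx]; exact h.resolve_left hx

lemma Ge.add {r : ℚ} {x y : K} (hx : w.Ge r x) (hy : w.Ge r y) : w.Ge r (x + y) := by
  by_cases hx0 : x = 0
  · rw [hx0, zero_add]; exact hy
  by_cases hy0 : y = 0
  · rw [hy0, add_zero]; exact hx
  by_cases hxy : x + y = 0
  · exact Or.inl hxy
  · right
    exact (le_min (hx.resolve_left hx0) (hy.resolve_left hy0)).trans (w.val_add' x y hx0 hy0 hxy)

lemma Gt.add {r : ℚ} {x y : K} (hx : w.Gt r x) (hy : w.Gt r y) : w.Gt r (x + y) := by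
  by_cases hx0 : x = 0
  · rw [hx0, zero_add]; exact hy
  by_cases hy0 : y = 0
  · rw [hy0, add_zero]; exact hx
  by_cases hxy : x + y = 0
  · exact Or.inl hxy
  · right
    exact (lt_min (hx.resolve_left hx0) (hy.resolve_left hy0)).trans_le
      (w.val_add' x y hx0 hy0 hxy)

lemma Ge.sub {r : ℚ} {x y : K} (hx : w.Ge r x) (hy : w.Ge r y) : w.Ge r (x - y) := by
  rw [sub_eq_add_neg]; exact hx.add hy.neg

lemma Gt.sub {r : ℚ} {x y : K} (hx : w.Gt r x) (hy : w.Gt r y) : w.Gt r (x - y) := by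
  rw [sub_eq_add_neg]; exact hx.add hy.neg

lemma Is.mul {r s : ℚ} {x y : K} (hx : w.Is r x) (hy : w.Is s y) : w.Is (r + s) (x * y) :=
  ⟨mul_ne_zero hx.1 hy.1, by rw [w.val_mul' x y hx.1 hy.1, hx.2, hy.2]⟩

lemma Is.pow {r : ℚ} {x : K} (hx : w.Is r x) (n : ℕ) : w.Is (n * r) (x ^ n) := by
  induction n with
  | zero => simpa using is_one
  | succ n ih =>
    rw [pow_succ]
    exact (ih.mul hx).congr (by push_cast; ring)

lemma Is.sq {r : ℚ} {x : K} (hx : w.Is r x) : w.Is (2 * r) (x ^ 2) := by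
  exact_mod_cast hx.pow 2

lemma Ge.mul {r s : ℚ} {x y : K} (hx : w.Ge r x) (hy : w.Ge s y) : w.Ge (r + s) (x * y) := by
  by_cases hx0 : x = 0
  · left; rw [hx0, zero_mul]
  by_cases hy0 : y = 0
  · left; rw [hy0, mul_zero]
  right
  rw [w.val_mul' x y hx0 hy0]
  have := hx.resolve_left hx0
  have := hy.resolve_left hy0
  linarith

lemma Ge.mul_gt {r s : ℚ} {x y : K} (hx : w.Ge r x) (hy : w.Gt s y) : w.Gt (r + s) (x * y) := by
  by_cases hx0 : x = 0
  · left; rw [hx0, zero_mul]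
  by_cases hy0 : y = 0
  · left; rw [hy0, mul_zero]
  right
  rw [w.val_mul' x y hx0 hy0]
  have := hx.resolve_left hx0
  have := hy.resolve_left hy0
  linarith

lemma Gt.mul_ge {r s : ℚ} {x y : K} (hx : w.Gt r x) (hy : w.Ge s y) : w.Gt (r + s) (x * y) := by
  rw [mul_comm, add_comm]; exact hy.mul_gt hx

lemma Ge.pow {r : ℚ} {x : K} (hx : w.Ge r x) (n : ℕ) : w.Ge (n * r) (x ^ n) := by
  induction n with
  | zero => simpa using is_one.ge
  | succ n ih =>
    rw [pow_succ]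
    exact (ih.mul hx).mono (by push_cast; linarith)

lemma Ge.sq {r : ℚ} {x : K} (hx : w.Ge r x) : w.Ge (2 * r) (x ^ 2) := by
  exact_mod_cast hx.pow 2

lemma Is.add_gt {r : ℚ} {x y : K} (hx : w.Is r x) (hy : w.Gt r y) : w.Is r (x + y) := by
  have hxy : x + y ≠ 0 := by
    intro h
    have : x = -y := eq_neg_of_add_eq_zero_left h
    rw [this] at hx
    exact absurd (hx.lt_of_gt hy.neg) (lt_irrefl _)
  refine ⟨hxy, le_antisymm ?_ ?_⟩
  · by_contra hcon
    rw [not_le] at hcon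
    have h1 : w.Gt r (x + y) := Or.inr hcon
    have h2 : w.Gt r x := by
      have := h1.sub hy
      rwa [add_sub_cancel_right] at this
    exact absurd (hx.lt_of_gt h2) (lt_irrefl _)
  · exact (hx.ge.add hy.ge).resolve_left hxy

lemma Is.sub_gt {r : ℚ} {x y : K} (hx : w.Is r x) (hy : w.Gt r y) : w.Is r (x - y) := by
  rw [sub_eq_add_neg]; exact hx.add_gt hy.neg

lemma Gt.add_is {r : ℚ} {x y : K} (hx : w.Gt r x) (hy : w.Is r y) : w.Is r (x + y) := by
  rw [add_comm]; exact hy.add_gt hx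

lemma Gt.sub_is {r : ℚ} {x y : K} (hx : w.Gt r x) (hy : w.Is r y) : w.Is r (x - y) := by
  rw [sub_eq_add_neg]; exact hx.add_is hy.neg

lemma Is.of_mul {r t : ℚ} {x y : K} (hxy : w.Is t (x * y)) (hx : w.Is r x) :
    w.Is (t - r) y := by
  have hy : y ≠ 0 := right_ne_zero_of_mul hxy.1
  refine ⟨hy, ?_⟩
  have := w.val_mul' x y hx.1 hy
  rw [hxy.2, hx.2] at this
  linarith

lemma Ge.of_mul {r t : ℚ} {x y : K} (hxy : w.Ge t (x * y)) (hx : w.Is r x) :
    w.Ge (t - r) y := by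
  by_cases hy : y = 0
  · exact Or.inl hy
  · right
    have h := w.val_mul' x y hx.1 hy
    have h2 := hxy.resolve_left (mul_ne_zero hx.1 hy)
    rw [h, hx.2] at h2
    linarith

lemma Gt.of_mul {r t : ℚ} {x y : K} (hxy : w.Gt t (x * y)) (hx : w.Is r x) :
    w.Gt (t - r) y := by
  by_cases hy : y = 0
  · exact Or.inl hy
  · right
    have h := w.val_mul' x y hx.1 hy
    have h2 := hxy.resolve_left (mul_ne_zero hx.1 hy)
    rw [h, hx.2] at h2
    linarith

lemma Is.inv {r : ℚ} {x : K} (hx : w.Is r x) : w.Is (-r) x⁻¹ := by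
  have h : w.Is 0 (x * x⁻¹) := by rw [mul_inv_cancel₀ hx.1]; exact is_one
  exact (h.of_mul hx).congr (by ring)

lemma ge_natCast (n : ℕ) : w.Ge 0 (n : K) := by
  induction n with
  | zero => rw [Nat.cast_zero]; exact ge_zero 0
  | succ n ih => rw [Nat.cast_succ]; exact ih.add is_one.ge

lemma ge_intCast (n : ℤ) : w.Ge 0 (n : K) := by
  obtain ⟨m, rfl | rfl⟩ := n.eq_nat_or_neg
  · rw [Int.cast_natCast]; exact ge_natCast m
  · rw [Int.cast_neg, Int.cast_natCast]; exact (ge_natCast m).neg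

lemma ge_two : w.Ge 0 (2 : K) := by exact_mod_cast ge_natCast (w := w) 2

lemma ge_four : w.Ge 0 (4 : K) := by exact_mod_cast ge_natCast (w := w) 4

/-! ### The Newton polygon of a quadratic polynomial -/

/-- Both roots have valuation `≥ r`. -/
lemma roots_ge {r : ℚ} {a b s t : K} (hs : a + b = s) (ht : a * b = t) (h1 : w.Ge r s)
    (h2 : w.Ge (2 * r) t) : w.Ge r a := by
  by_contra hcon
  rw [not_ge_iff] at hcon
  obtain ⟨ha0, ha⟩ := hcon
  have hb : w.Is (w.val a) b := by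
    have : b = s - a := by rw [← hs]; ring
    rw [this]
    exact (h1.gt ha).sub_is (Is.of_ne ha0)
  have h3 : w.Is (w.val a + w.val a) (a * b) := (Is.of_ne ha0).mul hb
  rw [ht] at h3
  have := h3.le_of_ge h2
  linarith

lemma roots_is {r : ℚ} {a b s t : K} (hs : a + b = s) (ht : a * b = t) (h1 : w.Ge r s)
    (h2 : w.Is (2 * r) t) : w.Is r a ∧ w.Is r b := by
  have ha := roots_ge hs ht h1 h2.ge
  have hb := roots_ge (by rw [add_comm]; exact hs) (by rw [mul_comm]; exact ht) h1 h2.ge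
  have ha0 : a ≠ 0 := by rintro rfl; rw [zero_mul] at ht; exact h2.1 ht.symm
  have hb0 : b ≠ 0 := by rintro rfl; rw [mul_zero] at ht; exact h2.1 ht.symm
  have ha' := ha.resolve_left ha0
  have hb' := hb.resolve_left hb0
  have h3 := w.val_mul' a b ha0 hb0
  rw [ht, h2.2] at h3
  exact ⟨⟨ha0, by linarith⟩, ⟨hb0, by linarith⟩⟩

/-- One root of valuation `r`, the other of valuation `≥ t₀ - r`. -/
lemma roots_split_ge {r t₀ : ℚ} {a b s t : K} (hs : a + b = s) (ht : a * b = t) (h1 : w.Is r s)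
    (h2 : w.Ge t₀ t) (hlt : 2 * r < t₀) :
    (w.Is r a ∧ w.Ge (t₀ - r) b) ∨ (w.Ge (t₀ - r) a ∧ w.Is r b) := by
  have ha := roots_ge hs ht h1.ge (h2.mono hlt.le)
  have hb := roots_ge (by rw [add_comm]; exact hs) (by rw [mul_comm]; exact ht) h1.ge
    (h2.mono hlt.le)
  by_cases ha' : w.Gt r a
  · right
    have hbi : w.Is r b := by
      have : b = s - a := by rw [← hs]; ring
      rw [this]; exact h1.sub_gt ha'
    refine ⟨?_, hbi⟩
    rw [← ht, mul_comm] at h2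
    exact h2.of_mul hbi
  · left
    rw [not_gt_iff] at ha'
    have hai : w.Is r a := ⟨ha'.1, le_antisymm ha'.2 (ha.resolve_left ha'.1)⟩
    refine ⟨hai, ?_⟩
    rw [← ht] at h2
    exact h2.of_mul hai

lemma roots_split_is {r t₀ : ℚ} {a b s t : K} (hs : a + b = s) (ht : a * b = t) (h1 : w.Is r s)
    (h2 : w.Is t₀ t) (hlt : 2 * r < t₀) :
    (w.Is r a ∧ w.Is (t₀ - r) b) ∨ (w.Is (t₀ - r) a ∧ w.Is r b) := by
  rcases roots_split_ge hs ht h1 h2.ge hlt with ⟨ha, -⟩ | ⟨-, hb⟩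
  · left
    refine ⟨ha, ?_⟩
    rw [← ht] at h2
    exact h2.of_mul ha
  · right
    refine ⟨?_, hb⟩
    rw [← ht, mul_comm] at h2
    exact h2.of_mul hb

end QVal

end FermatAgent.ECVal
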