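import Fermat.Agent.ECVal.XLine
import Fermat.Agent.ECVal.QVal

/-!
# The component function on a Weierstrass curve with multiplicative reduction

We work with the `x`-coordinate `x'` shifted so that `x' = 0` is (the `x`-coordinate of) a
`2`-torsion point reducing to the node.  In terms of shifted `b`-invariants this means
`b₆' = 0`, `b₄' = 2 D`, `b₈' = - D ^ 2` with `v(b₂') = 0` and `v(D) = h > 0`.
-/

set_option autoImplicit false

namespace FermatAgent.ECVal

open WeierstrassCurve WeierstrassCurve.Affine WeierstrassCurve.Affine.Point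

namespace QVal

variable {K : Type*} [Field K] {w : QVal K}

/-- The equivalence relation on `ℚ` generated by `a ∼ -a` and `a ∼ a + 2h`. -/
def Rel (h a b : ℚ) : Prop := ∃ j : ℤ, a = b + j * (2 * h) ∨ a = -b + j * (2 * h)

lemma Rel.refl (h a : ℚ) : Rel h a a := ⟨0, Or.inl (by simp)⟩

lemma Rel.of_eq {h a b : ℚ} (hab : a = b) : Rel h a b := ⟨0, Or.inl (by simp [hab])⟩

lemma Rel.symm {h a b : ℚ} (hab : Rel h a b) : Rel h b a := by
  obtain ⟨j, hj | hj⟩ := hab
  · exact ⟨-j, Or.inl (by push_cast; linarith)⟩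
  · exact ⟨j, Or.inr (by linarith)⟩

lemma Rel.trans {h a b c : ℚ} (hab : Rel h a b) (hbc : Rel h b c) : Rel h a c := by
  obtain ⟨j, hj | hj⟩ := hab <;> obtain ⟨k, hk | hk⟩ := hbc
  · exact ⟨j + k, Or.inl (by push_cast; linarith)⟩
  · exact ⟨j + k, Or.inr (by push_cast; linarith)⟩
  · exact ⟨j - k, Or.inr (by push_cast; linarith)⟩
  · exact ⟨j - k, Or.inl (by push_cast; linarith)⟩

/-- The component function in terms of the shifted `x`-coordinate. -/
noncomputable def comp (w : QVal K) (h : ℚ) (x : K) : ℚ :=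
  open scoped Classical in if x = 0 then h else max 0 (min (w.val x) h)

lemma comp_of_ge {h : ℚ} (hh : 0 < h) {x : K} (hx : w.Ge h x) : w.comp h x = h := by
  unfold comp
  split_ifs with h0
  · rfl
  · rw [min_eq_right (hx.resolve_left h0), max_eq_right hh.le]

lemma comp_of_is {h : ℚ} {x : K} {r : ℚ} (hx : w.Is r x) (h0 : 0 ≤ r) (h1 : r ≤ h) :
    w.comp h x = r := by
  unfold comp
  rw [if_neg hx.1, hx.2, min_eq_left h1, max_eq_right h0]

lemma comp_of_not_gt {h : ℚ} {x : K} (hx : ¬ w.Gt 0 x) : w.comp h x = 0 := by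
  rw [not_gt_iff] at hx
  unfold comp
  rw [if_neg hx.1]
  exact max_eq_left ((min_le_left _ _).trans hx.2)

lemma comp_of_is_nonpos {h : ℚ} {x : K} {r : ℚ} (hx : w.Is r x) (h0 : r ≤ 0) :
    w.comp h x = 0 := comp_of_not_gt (hx.not_gt h0)

/-- The three types of points. -/
lemma comp_cases {h : ℚ} (x : K) :
    (∃ r, r ≤ 0 ∧ w.Is r x) ∨ (∃ r, 0 < r ∧ r < h ∧ w.Is r x) ∨ w.Ge h x := by
  by_cases h1 : w.Ge h x
  · exact Or.inr (Or.inr h1)
  · rw [not_ge_iff] at h1
    by_cases h2 : w.val x ≤ 0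
    · exact Or.inl ⟨_, h2, h1.1, rfl⟩
    · exact Or.inr (Or.inl ⟨_, not_le.mp h2, h1.2, h1.1, rfl⟩)

/-- The main property for a pair of points. -/
def PairRel (h c c₁ c₂ c' : ℚ) : Prop :=
  (Rel h c (c₁ + c₂) ∧ Rel h c' (c₁ - c₂)) ∨ (Rel h c (c₁ - c₂) ∧ Rel h c' (c₁ + c₂))

lemma PairRel.swap {h c c₁ c₂ c' : ℚ} (H : PairRel h c c₁ c₂ c') : PairRel h c c₂ c₁ c' := by
  have e : Rel h (c₁ - c₂) (c₂ - c₁) := ⟨0, Or.inr (by simp)⟩
  rcases H with ⟨h1, h2⟩ | ⟨h1, h2⟩
  · left; exact ⟨by rwa [add_comm], h2.trans e⟩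
  · right; exact ⟨h1.trans e, by rwa [add_comm]⟩

section pair

variable {h : ℚ} {B D x₁ x₂ α β : K}

/-- Case of distinct components: `x₁` is in a lower component. -/
lemma pair_lt (hh : 0 < h) (hB : w.Is 0 B) (hD : w.Is h D)
    (hs : (x₁ - x₂) ^ 2 * (α + β) = 2 * (x₁ * x₂) * (x₁ + x₂) + B * (x₁ * x₂) +
      2 * D * (x₁ + x₂))
    (hp : (x₁ - x₂) ^ 2 * (α * β) = (x₁ * x₂ - D) ^ 2)
    {p : ℚ} (hph : p < h) (h₁ : w.Is p x₁)
    (h₂ : w.Gt p x₂) (h₂' : w.Gt 0 x₂) :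
    PairRel h (w.comp h α) (w.comp h x₁) (w.comp h x₂) (w.comp h β) := by
  have hd : w.Is p (x₁ - x₂) := h₁.sub_gt h₂
  have hd2 : w.Is (2 * p) ((x₁ - x₂) ^ 2) := hd.sq
  have hadd : w.Is p (x₁ + x₂) := h₁.add_gt h₂
  have two := ge_two (w := w)
  -- dispose of the case `v(x₂) ≥ h`
  rcases comp_cases (w := w) (h := h) x₂ with ⟨r, hr, hx₂⟩ | ⟨r, hr0, hrh, hx₂⟩ | hx₂
  · exact absurd (hx₂.lt_of_gt h₂') (not_lt.mpr hr)
  · -- `0 < r = v(x₂) < h`
    have hpr : p < r := hx₂.lt_of_gt h₂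
    rw [comp_of_is hx₂ hr0.le hrh.le]
    have hx12 : w.Is (p + r) (x₁ * x₂) := h₁.mul hx₂
    rcases le_or_gt p 0 with hp0 | hp0
    · -- `p ≤ 0`
      rw [comp_of_is_nonpos h₁ hp0]
      have hSig : w.Ge (2 * p + r) (2 * (x₁ * x₂) * (x₁ + x₂) + B * (x₁ * x₂) +
          2 * D * (x₁ + x₂)) := by
        refine ((Ge.mono ((two.mul hx12.ge).mul hadd.ge) ?_).add
          (Ge.mono (hB.mul hx12).ge ?_)).add (Ge.mono ((two.mul hD.ge).mul hadd.ge) ?_) <;>
        linarith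
      have hs' : w.Ge r (α + β) := by
        rw [← hs] at hSig
        exact (hSig.of_mul hd2).mono (by linarith)
      have hPi : w.Is (p + r) (x₁ * x₂ - D) := hx12.sub_gt (hD.gt (by linarith))
      have hp' : w.Is (2 * r) (α * β) := by
        have := hPi.sq
        rw [← hp] at this
        exact (this.of_mul hd2).congr (by ring)
      obtain ⟨ha, hb⟩ := roots_is rfl rfl hs' hp'
      rw [comp_of_is ha hr0.le hrh.le, comp_of_is hb hr0.le hrh.le]
      left
      exact ⟨⟨0, Or.inl (by simp)⟩, ⟨0, Or.inr (by simp)⟩⟩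
    · -- `0 < p`
      rw [comp_of_is h₁ hp0.le hph.le]
      have hSig : w.Is (p + r) (2 * (x₁ * x₂) * (x₁ + x₂) + B * (x₁ * x₂) +
          2 * D * (x₁ + x₂)) := by
        refine (Gt.add_is (Ge.gt ((two.mul hx12.ge).mul hadd.ge) ?_)
          ((hB.mul hx12).congr ?_)).add_gt (Ge.gt ((two.mul hD.ge).mul hadd.ge) ?_) <;>
        linarith
      have hs' : w.Is (r - p) (α + β) := by
        rw [← hs] at hSig
        exact (hSig.of_mul hd2).congr (by linarith)
      rcases lt_trichotomy (p + r) h with hlt | heq | hgt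
      · have hPi : w.Is (p + r) (x₁ * x₂ - D) := hx12.sub_gt (hD.gt (by linarith))
        have hp' : w.Is (2 * r) (α * β) := by
          have := hPi.sq
          rw [← hp] at this
          exact (this.of_mul hd2).congr (by ring)
        rcases roots_split_is rfl rfl hs' hp' (by linarith) with ⟨ha, hb⟩ | ⟨ha, hb⟩
        · right
          rw [comp_of_is ha (by linarith) (by linarith), comp_of_is hb (by linarith) (by linarith)]
          exact ⟨⟨0, Or.inr (by push_cast; linarith)⟩, ⟨0, Or.inl (by push_cast; linarith)⟩⟩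
        · left
          rw [comp_of_is ha (by linarith) (by linarith), comp_of_is hb (by linarith) (by linarith)]
          exact ⟨⟨0, Or.inl (by push_cast; linarith)⟩, ⟨0, Or.inr (by push_cast; linarith)⟩⟩
      · have hPi : w.Ge h (x₁ * x₂ - D) := (hx12.ge.mono heq.ge).sub hD.ge
        have hp' : w.Ge (2 * h - 2 * p) (α * β) := by
          have := hPi.sq
          rw [← hp] at this
          exact (this.of_mul hd2)
        rcases roots_split_ge rfl rfl hs' hp' (by linarith) with ⟨ha, hb⟩ | ⟨ha, hb⟩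
        · right
          rw [comp_of_is ha (by linarith) (by linarith), comp_of_ge hh (hb.mono (by linarith))]
          exact ⟨⟨0, Or.inr (by push_cast; linarith)⟩, ⟨0, Or.inl (by push_cast; linarith)⟩⟩
        · left
          rw [comp_of_ge hh (ha.mono (by linarith)), comp_of_is hb (by linarith) (by linarith)]
          exact ⟨⟨0, Or.inl (by push_cast; linarith)⟩, ⟨0, Or.inr (by push_cast; linarith)⟩⟩
      · have hPi : w.Is h (x₁ * x₂ - D) := (hx12.gt hgt).sub_is hD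
        have hp' : w.Is (2 * h - 2 * p) (α * β) := by
          have := hPi.sq
          rw [← hp] at this
          exact (this.of_mul hd2)
        rcases roots_split_is rfl rfl hs' hp' (by linarith) with ⟨ha, hb⟩ | ⟨ha, hb⟩
        · right
          rw [comp_of_is ha (by linarith) (by linarith), comp_of_is hb (by linarith) (by linarith)]
          exact ⟨⟨0, Or.inr (by push_cast; linarith)⟩, ⟨1, Or.inr (by push_cast; linarith)⟩⟩
        · left
          rw [comp_of_is ha (by linarith) (by linarith), comp_of_is hb (by linarith) (by linarith)]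
          exact ⟨⟨1, Or.inr (by push_cast; linarith)⟩, ⟨0, Or.inr (by push_cast; linarith)⟩⟩
  · -- `v(x₂) ≥ h`
    rw [comp_of_ge hh hx₂]
    have hx12 : w.Ge (p + h) (x₁ * x₂) := h₁.ge.mul hx₂
    rcases le_or_gt p 0 with hp0 | hp0
    · rw [comp_of_is_nonpos h₁ hp0]
      have hSig : w.Ge (2 * p + h) (2 * (x₁ * x₂) * (x₁ + x₂) + B * (x₁ * x₂) +
          2 * D * (x₁ + x₂)) := by
        refine ((Ge.mono ((two.mul hx12).mul hadd.ge) ?_).add
          (Ge.mono (hB.ge.mul hx12) ?_)).add (Ge.mono ((two.mul hD.ge).mul hadd.ge) ?_) <;>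
        linarith
      have hs' : w.Ge h (α + β) := by
        rw [← hs] at hSig
        exact (hSig.of_mul hd2).mono (by linarith)
      have hPi : w.Ge (p + h) (x₁ * x₂ - D) := hx12.sub (hD.ge.mono (by linarith))
      have hp' : w.Ge (2 * h) (α * β) := by
        have := hPi.sq
        rw [← hp] at this
        exact (this.of_mul hd2).mono (by linarith)
      have ha := roots_ge rfl rfl hs' hp'
      have hb := roots_ge (b := α) (a := β) rfl rfl (by rw [add_comm]; exact hs')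
        (by rw [mul_comm β α]; exact hp')
      rw [comp_of_ge hh ha, comp_of_ge hh hb]
      left
      exact ⟨⟨0, Or.inl (by simp)⟩, ⟨0, Or.inr (by simp)⟩⟩
    · rw [comp_of_is h₁ hp0.le hph.le]
      have hSig : w.Ge (p + h) (2 * (x₁ * x₂) * (x₁ + x₂) + B * (x₁ * x₂) +
          2 * D * (x₁ + x₂)) := by
        refine ((Ge.mono ((two.mul hx12).mul hadd.ge) ?_).add
          (Ge.mono (hB.ge.mul hx12) ?_)).add (Ge.mono ((two.mul hD.ge).mul hadd.ge) ?_) <;>
        linarith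
      have hs' : w.Ge (h - p) (α + β) := by
        rw [← hs] at hSig
        exact (hSig.of_mul hd2).mono (by linarith)
      have hPi : w.Is h (x₁ * x₂ - D) := (hx12.gt (by linarith)).sub_is hD
      have hp' : w.Is (2 * (h - p)) (α * β) := by
        have := hPi.sq
        rw [← hp] at this
        exact (this.of_mul hd2).congr (by ring)
      obtain ⟨ha, hb⟩ := roots_is rfl rfl hs' hp'
      rw [comp_of_is ha (by linarith) (by linarith), comp_of_is hb (by linarith) (by linarith)]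
      left
      exact ⟨⟨1, Or.inr (by push_cast; linarith)⟩, ⟨0, Or.inr (by push_cast; linarith)⟩⟩

/-- both in the identity component -/
lemma pair_zero_aux (hh : 0 < h) (hB : w.Is 0 B) (hD : w.Is h D)
    (hs : (x₁ - x₂) ^ 2 * (α + β) = 2 * (x₁ * x₂) * (x₁ + x₂) + B * (x₁ * x₂) +
      2 * D * (x₁ + x₂))
    (hp : (x₁ - x₂) ^ 2 * (α * β) = (x₁ * x₂ - D) ^ 2)
    {p₁ p₂ : ℚ} (hp₁ : p₁ ≤ 0) (hp₂ : p₂ ≤ 0) (h₁ : w.Is p₁ x₁) (h₂ : w.Is p₂ x₂) :
    ¬ w.Gt 0 α := by
  intro hα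
  have two := ge_two (w := w)
  have hm1 : w.Ge (p₁ + p₂) x₁ := h₁.ge.mono (by linarith)
  have hm2 : w.Ge (p₁ + p₂) x₂ := h₂.ge.mono (by linarith)
  have hd2 : w.Ge (2 * (p₁ + p₂)) ((x₁ - x₂) ^ 2) := (hm1.sub hm2).sq
  have hadd : w.Ge (p₁ + p₂) (x₁ + x₂) := hm1.add hm2
  have hx12 : w.Is (p₁ + p₂) (x₁ * x₂) := h₁.mul h₂
  have hPi : w.Is (p₁ + p₂) (x₁ * x₂ - D) := hx12.sub_gt (hD.gt (by linarith))
  have key : (x₁ * x₂ - D) ^ 2 = (2 * (x₁ * x₂) * (x₁ + x₂) + B * (x₁ * x₂) +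
      2 * D * (x₁ + x₂)) * α - (x₁ - x₂) ^ 2 * (α * α) := by
    rw [← hp, ← hs]; ring
  have hSig : w.Ge (2 * (p₁ + p₂)) (2 * (x₁ * x₂) * (x₁ + x₂) + B * (x₁ * x₂) +
      2 * D * (x₁ + x₂)) := by
    refine ((Ge.mono ((two.mul hx12.ge).mul hadd) ?_).add
      (Ge.mono (hB.mul hx12).ge ?_)).add (Ge.mono ((two.mul hD.ge).mul hadd) ?_) <;>
    linarith
  have h3 : w.Gt (2 * (p₁ + p₂)) ((x₁ * x₂ - D) ^ 2) := by
    rw [key]
    exact ((hSig.mul_gt hα).mono (by linarith)).sub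
      ((hd2.mul_gt (hα.mul_ge hα.ge)).mono (by linarith))
  exact absurd (hPi.sq.lt_of_gt h3) (lt_irrefl _)

/-- both in the middle component -/
lemma pair_mid_aux (hh : 0 < h) (hB : w.Is 0 B) (hD : w.Is h D)
    (hs : (x₁ - x₂) ^ 2 * (α + β) = 2 * (x₁ * x₂) * (x₁ + x₂) + B * (x₁ * x₂) +
      2 * D * (x₁ + x₂))
    (hp : (x₁ - x₂) ^ 2 * (α * β) = (x₁ * x₂ - D) ^ 2)
    (h₁ : w.Ge h x₁) (h₂ : w.Ge h x₂) :
    ¬ w.Gt 0 α := by
  intro hα
  have two := ge_two (w := w)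
  have hd2 : w.Ge (2 * h) ((x₁ - x₂) ^ 2) := (h₁.sub h₂).sq
  have hadd : w.Ge h (x₁ + x₂) := h₁.add h₂
  have hx12 : w.Ge (h + h) (x₁ * x₂) := h₁.mul h₂
  have hPi : w.Is h (x₁ * x₂ - D) := (hx12.gt (by linarith)).sub_is hD
  have key : (x₁ * x₂ - D) ^ 2 = (2 * (x₁ * x₂) * (x₁ + x₂) + B * (x₁ * x₂) +
      2 * D * (x₁ + x₂)) * α - (x₁ - x₂) ^ 2 * (α * α) := by
    rw [← hp, ← hs]; ring
  have hSig : w.Ge (2 * h) (2 * (x₁ * x₂) * (x₁ + x₂) + B * (x₁ * x₂) +
      2 * D * (x₁ + x₂)) := by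
    refine ((Ge.mono ((two.mul hx12).mul hadd) ?_).add
      (Ge.mono (hB.ge.mul hx12) ?_)).add (Ge.mono ((two.mul hD.ge).mul hadd) ?_) <;>
    linarith
  have h3 : w.Gt (2 * h) ((x₁ * x₂ - D) ^ 2) := by
    rw [key]
    exact ((hSig.mul_gt hα).mono (by linarith)).sub
      ((hd2.mul_gt (hα.mul_ge hα.ge)).mono (by linarith))
  exact absurd (hPi.sq.lt_of_gt h3) (lt_irrefl _)

/-- both in the same component, neither the identity nor the middle one. -/
lemma pair_eq (hh : 0 < h) (hB : w.Is 0 B) (hD : w.Is h D)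
    (hs : (x₁ - x₂) ^ 2 * (α + β) = 2 * (x₁ * x₂) * (x₁ + x₂) + B * (x₁ * x₂) +
      2 * D * (x₁ + x₂))
    (hp : (x₁ - x₂) ^ 2 * (α * β) = (x₁ * x₂ - D) ^ 2)
    (hne : x₁ ≠ x₂) {m : ℚ} (hm0 : 0 < m) (hmh : m < h) (h₁ : w.Is m x₁) (h₂ : w.Is m x₂) :
    PairRel h (w.comp h α) (w.comp h x₁) (w.comp h x₂) (w.comp h β) := by
  rw [comp_of_is h₁ hm0.le hmh.le, comp_of_is h₂ hm0.le hmh.le]
  have two := ge_two (w := w)
  have hd0 : x₁ - x₂ ≠ 0 := sub_ne_zero.mpr hne
  obtain ⟨δ, hδ⟩ : ∃ δ, w.Is δ (x₁ - x₂) := ⟨_, Is.of_ne hd0⟩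
  have hmδ : m ≤ δ := hδ.le_of_ge (h₁.ge.sub h₂.ge)
  have hd2 : w.Is (2 * δ) ((x₁ - x₂) ^ 2) := hδ.sq
  have hadd : w.Ge m (x₁ + x₂) := h₁.ge.add h₂.ge
  have hx12 : w.Is (m + m) (x₁ * x₂) := h₁.mul h₂
  have hSig : w.Is (2 * m) (2 * (x₁ * x₂) * (x₁ + x₂) + B * (x₁ * x₂) +
      2 * D * (x₁ + x₂)) := by
    refine (Gt.add_is (Ge.gt ((two.mul hx12.ge).mul hadd) ?_)
      ((hB.mul hx12).congr ?_)).add_gt (Ge.gt ((two.mul hD.ge).mul hadd) ?_) <;>
    linarith
  have hs' : w.Is (2 * m - 2 * δ) (α + β) := by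
    rw [← hs] at hSig
    exact hSig.of_mul hd2
  rcases lt_trichotomy (m + m) h with hlt | heq | hgt
  · have hPi : w.Is (m + m) (x₁ * x₂ - D) := hx12.sub_gt (hD.gt hlt)
    have hp' : w.Is (4 * m - 2 * δ) (α * β) := by
      have := hPi.sq
      rw [← hp] at this
      exact (this.of_mul hd2).congr (by ring)
    rcases roots_split_is rfl rfl hs' hp' (by linarith) with ⟨ha, hb⟩ | ⟨ha, hb⟩
    · right
      rw [comp_of_is_nonpos ha (by linarith), comp_of_is hb (by linarith) (by linarith)]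
      exact ⟨⟨0, Or.inl (by push_cast; linarith)⟩, ⟨0, Or.inl (by push_cast; linarith)⟩⟩
    · left
      rw [comp_of_is ha (by linarith) (by linarith), comp_of_is_nonpos hb (by linarith)]
      exact ⟨⟨0, Or.inl (by push_cast; linarith)⟩, ⟨0, Or.inl (by push_cast; linarith)⟩⟩
  · have hPi : w.Ge h (x₁ * x₂ - D) := (hx12.ge.mono heq.ge).sub hD.ge
    have hp' : w.Ge (2 * h - 2 * δ) (α * β) := by
      have := hPi.sq
      rw [← hp] at this
      exact this.of_mul hd2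
    rcases roots_split_ge rfl rfl hs' hp' (by linarith) with ⟨ha, hb⟩ | ⟨ha, hb⟩
    · right
      rw [comp_of_is_nonpos ha (by linarith), comp_of_ge hh (hb.mono (by linarith))]
      exact ⟨⟨0, Or.inl (by push_cast; linarith)⟩, ⟨0, Or.inl (by push_cast; linarith)⟩⟩
    · left
      rw [comp_of_ge hh (ha.mono (by linarith)), comp_of_is_nonpos hb (by linarith)]
      exact ⟨⟨0, Or.inl (by push_cast; linarith)⟩, ⟨0, Or.inl (by push_cast; linarith)⟩⟩
  · have hPi : w.Is h (x₁ * x₂ - D) := (hx12.gt hgt).sub_is hD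
    have hp' : w.Is (2 * h - 2 * δ) (α * β) := by
      have := hPi.sq
      rw [← hp] at this
      exact this.of_mul hd2
    rcases roots_split_is rfl rfl hs' hp' (by linarith) with ⟨ha, hb⟩ | ⟨ha, hb⟩
    · right
      rw [comp_of_is_nonpos ha (by linarith), comp_of_is hb (by linarith) (by linarith)]
      exact ⟨⟨0, Or.inl (by push_cast; linarith)⟩, ⟨1, Or.inr (by push_cast; linarith)⟩⟩
    · left
      rw [comp_of_is ha (by linarith) (by linarith), comp_of_is_nonpos hb (by linarith)]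
      exact ⟨⟨1, Or.inr (by push_cast; linarith)⟩, ⟨0, Or.inl (by push_cast; linarith)⟩⟩

/-- **The component function is additive up to sign** (version on the `x`-line). -/
theorem pair (hh : 0 < h) (hB : w.Is 0 B) (hD : w.Is h D)
    (hs : (x₁ - x₂) ^ 2 * (α + β) = 2 * (x₁ * x₂) * (x₁ + x₂) + B * (x₁ * x₂) +
      2 * D * (x₁ + x₂))
    (hp : (x₁ - x₂) ^ 2 * (α * β) = (x₁ * x₂ - D) ^ 2)
    (hne : x₁ ≠ x₂) :
    PairRel h (w.comp h α) (w.comp h x₁) (w.comp h x₂) (w.comp h β) := by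
  have hs2 : (x₂ - x₁) ^ 2 * (α + β) = 2 * (x₂ * x₁) * (x₂ + x₁) + B * (x₂ * x₁) +
      2 * D * (x₂ + x₁) := by linear_combination hs
  have hp2 : (x₂ - x₁) ^ 2 * (α * β) = (x₂ * x₁ - D) ^ 2 := by linear_combination hp
  have hs3 : (x₁ - x₂) ^ 2 * (β + α) = 2 * (x₁ * x₂) * (x₁ + x₂) + B * (x₁ * x₂) +
      2 * D * (x₁ + x₂) := by linear_combination hs
  have hp3 : (x₁ - x₂) ^ 2 * (β * α) = (x₁ * x₂ - D) ^ 2 := by linear_combination hp
  rcases comp_cases (w := w) (h := h) x₁ with ⟨r₁, hr₁, hx₁⟩ | ⟨r₁, hr₁, hrh₁, hx₁⟩ | hx₁ <;>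
  rcases comp_cases (w := w) (h := h) x₂ with ⟨r₂, hr₂, hx₂⟩ | ⟨r₂, hr₂, hrh₂, hx₂⟩ | hx₂
  · -- both identity component
    rw [comp_of_is_nonpos hx₁ hr₁, comp_of_is_nonpos hx₂ hr₂,
      comp_of_not_gt (pair_zero_aux hh hB hD hs hp hr₁ hr₂ hx₁ hx₂),
      comp_of_not_gt (pair_zero_aux hh hB hD hs3 hp3 hr₁ hr₂ hx₁ hx₂)]
    left; exact ⟨⟨0, Or.inl (by simp)⟩, ⟨0, Or.inl (by simp)⟩⟩
  · exact pair_lt hh hB hD hs hp (by linarith) hx₁ (hx₂.gt (by linarith)) (hx₂.gt hr₂)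
  · exact pair_lt hh hB hD hs hp (by linarith) hx₁ (hx₂.gt (by linarith)) (hx₂.gt hh)
  · exact (pair_lt hh hB hD hs2 hp2 (by linarith) hx₂ (hx₁.gt (by linarith)) (hx₁.gt hr₁)).swap
  · rcases lt_trichotomy r₁ r₂ with hlt | heq | hgt
    · exact pair_lt hh hB hD hs hp hrh₁ hx₁ (hx₂.gt hlt) (hx₂.gt hr₂)
    · exact pair_eq hh hB hD hs hp hne hr₁ hrh₁ hx₁ (hx₂.congr heq.symm)
    · exact (pair_lt hh hB hD hs2 hp2 hrh₂ hx₂ (hx₁.gt hgt) (hx₁.gt hr₁)).swap
  · exact pair_lt hh hB hD hs hp hrh₁ hx₁ (hx₂.gt hrh₁) (hx₂.gt hh)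
  · exact (pair_lt hh hB hD hs2 hp2 (by linarith) hx₂ (hx₁.gt (by linarith)) (hx₁.gt hh)).swap
  · exact (pair_lt hh hB hD hs2 hp2 hrh₂ hx₂ (hx₁.gt hrh₂) (hx₁.gt hh)).swap
  · rw [comp_of_ge hh hx₁, comp_of_ge hh hx₂,
      comp_of_not_gt (pair_mid_aux hh hB hD hs hp hx₁ hx₂),
      comp_of_not_gt (pair_mid_aux hh hB hD hs3 hp3 hx₁ hx₂)]
    left; exact ⟨⟨-1, Or.inl (by push_cast; ring)⟩, ⟨0, Or.inl (by simp)⟩⟩

/-- Duplication. -/
theorem dup (hh : 0 < h) (hB : w.Is 0 B) (hD : w.Is h D) {x α ψ : K}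
    (hψ2 : ψ ^ 2 = 4 * x ^ 3 + B * x ^ 2 + 4 * D * x)
    (hα : ψ ^ 2 * α = (x ^ 2 - D) ^ 2) :
    Rel h (w.comp h α) (w.comp h x + w.comp h x) := by
  have four := ge_four (w := w)
  have hx2 : ∀ {r}, w.Ge r x → w.Ge (3 * r) (x ^ 3) := fun {r} hr => by
    exact_mod_cast hr.pow 3
  rcases comp_cases (w := w) (h := h) x with ⟨r, hr, hx⟩ | ⟨r, hr, hrh, hx⟩ | hx
  · have hPsi : w.Ge (3 * r) (ψ ^ 2) := by
      rw [hψ2]
      refine (((four.mul (hx2 hx.ge)).mono ?_).add ((hB.ge.mul hx.sq.ge).mono ?_)).add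
        (((four.mul hD.ge).mul hx.ge).mono ?_) <;> linarith
    have hPi : w.Is (2 * r) (x ^ 2 - D) := hx.sq.sub_gt (hD.gt (by linarith))
    have : ¬ w.Gt 0 α := by
      intro hα'
      have h3 := hPsi.mul_gt hα'
      rw [hα] at h3
      have := hPi.sq.lt_of_gt h3
      linarith
    rw [comp_of_not_gt this, comp_of_is_nonpos hx hr]
    exact ⟨0, Or.inl (by simp)⟩
  · have hPsi : w.Is (2 * r) (ψ ^ 2) := by
      rw [hψ2]
      refine (Gt.add_is ((four.mul (hx2 hx.ge)).gt ?_) ((hB.mul hx.sq).congr ?_)).add_gt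
        (((four.mul hD.ge).mul hx.ge).gt ?_) <;> linarith
    rw [comp_of_is hx hr.le hrh.le]
    rcases lt_trichotomy (r + r) h with hlt | heq | hgt
    · have hPi : w.Is (2 * r) (x ^ 2 - D) := hx.sq.sub_gt (hD.gt (by linarith))
      have := hPi.sq
      rw [← hα] at this
      rw [comp_of_is ((this.of_mul hPsi).congr (show _ = r + r by ring)) (by linarith) hlt.le]
      exact Rel.refl _ _
    · have hPi : w.Ge h (x ^ 2 - D) := (hx.sq.ge.mono (by linarith)).sub hD.ge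
      have := hPi.sq
      rw [← hα] at this
      rw [comp_of_ge hh ((this.of_mul hPsi).mono (by linarith))]
      exact Rel.of_eq heq.symm
    · have hPi : w.Is h (x ^ 2 - D) := (hx.sq.gt (by linarith)).sub_is hD
      have := hPi.sq
      rw [← hα] at this
      rw [comp_of_is (this.of_mul hPsi) (by linarith) (by linarith)]
      exact ⟨1, Or.inr (by push_cast; ring)⟩
  · have hPsi : w.Ge (2 * h) (ψ ^ 2) := by
      rw [hψ2]
      refine (((four.mul (hx2 hx)).mono ?_).add ((hB.ge.mul hx.sq).mono ?_)).add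
        (((four.mul hD.ge).mul hx).mono ?_) <;> linarith
    have hPi : w.Is h (x ^ 2 - D) := (hx.sq.gt (by linarith)).sub_is hD
    have : ¬ w.Gt 0 α := by
      intro hα'
      have h3 := hPsi.mul_gt hα'
      rw [hα] at h3
      have := hPi.sq.lt_of_gt h3
      linarith
    rw [comp_of_not_gt this, comp_of_ge hh hx]
    exact ⟨-1, Or.inl (by push_cast; ring)⟩

/-- Duplication in the `2`-torsion case. -/
theorem dup_torsion (hh : 0 < h) (hB : w.Is 0 B) (hD : w.Is h D) {x : K}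
    (hψ2 : 4 * x ^ 3 + B * x ^ 2 + 4 * D * x = 0) :
    Rel h 0 (w.comp h x + w.comp h x) := by
  have four := ge_four (w := w)
  have hx2 : ∀ {r}, w.Ge r x → w.Ge (3 * r) (x ^ 3) := fun {r} hr => by
    exact_mod_cast hr.pow 3
  rcases comp_cases (w := w) (h := h) x with ⟨r, hr, hx⟩ | ⟨r, hr, hrh, hx⟩ | hx
  · rw [comp_of_is_nonpos hx hr]
    exact ⟨0, Or.inl (by simp)⟩
  · exfalso
    have hPsi : w.Is (2 * r) (4 * x ^ 3 + B * x ^ 2 + 4 * D * x) := by
      refine (Gt.add_is ((four.mul (hx2 hx.ge)).gt ?_) ((hB.mul hx.sq).congr ?_)).add_gt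
        (((four.mul hD.ge).mul hx.ge).gt ?_) <;> linarith
    exact hPsi.1 hψ2
  · rw [comp_of_ge hh hx]
    exact ⟨-1, Or.inl (by push_cast; ring)⟩

end pair

end QVal

/-! ### The component function on points -/

/-- Data: the `2`-torsion `x`-coordinate `e` reduces to the node, `v(D) = h > 0`. -/
structure NodeData {K : Type*} [Field K] (w : QVal K) (W : Affine K) (e D : K) (h : ℚ) : Prop where
  hh : 0 < h
  hD : w.Is h D
  hB : w.Is 0 (W.b₂ + 12 * e)
  h4 : W.b₄ + W.b₂ * e + 6 * e ^ 2 = 2 * D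
  h6 : W.b₆ + 2 * W.b₄ * e + W.b₂ * e ^ 2 + 4 * e ^ 3 = 0
  h8 : W.b₈ + 3 * W.b₆ * e + 3 * W.b₄ * e ^ 2 + W.b₂ * e ^ 3 + 3 * e ^ 4 = - D ^ 2

section points

variable {K : Type*} [Field K] [DecidableEq K] {w : QVal K} {W : Affine K} {e D : K} {h : ℚ}

/-- the component function on points. -/
noncomputable def pcomp (w : QVal K) (e : K) (h : ℚ) : W.Point → ℚ
  | .zero => 0
  | .some x _ _ => w.comp h (x - e)

omit [DecidableEq K] in
lemma pcomp_zero : pcomp w e h (0 : W.Point) = 0 := rfl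

omit [DecidableEq K] in
lemma pcomp_some {x y : K} (hxy : W.Nonsingular x y) :
    pcomp w e h (some x y hxy) = w.comp h (x - e) := rfl

omit [DecidableEq K] in
lemma pcomp_neg (P : W.Point) : pcomp w e h (-P) = pcomp w e h P := by
  rcases P with _ | ⟨x, y, hxy⟩
  · rfl
  · rw [neg_some, pcomp_some, pcomp_some]

open QVal in
/-- The component function is additive up to sign. -/
theorem pcomp_pair (N : NodeData w W e D h) (P Q : W.Point) :
    PairRel h (pcomp w e h (P + Q)) (pcomp w e h P) (pcomp w e h Q) (pcomp w e h (P - Q)) := by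
  have hdouble : ∀ (x y : K) (hxy : W.Nonsingular x y),
      Rel h (pcomp w e h (some x y hxy + some x y hxy))
        (w.comp h (x - e) + w.comp h (x - e)) := by
    intro x y hxy
    have hpsi := psi2_sq hxy.1
    have hpsi' : (2 * y + W.a₁ * x + W.a₃) ^ 2 = 4 * (x - e) ^ 3 +
        (W.b₂ + 12 * e) * (x - e) ^ 2 + 4 * D * (x - e) := by
      rw [hpsi]
      linear_combination 2 * (x - e) * N.h4 + N.h6
    rcases double_cases hxy with ⟨hz, hψ⟩ | ⟨hψ, α, α', hα, hsum, hform⟩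
    · rw [hz, pcomp_zero]
      apply dup_torsion N.hh N.hB N.hD
      rw [← hpsi', hψ]; ring
    · rw [hsum, pcomp_some]
      refine dup N.hh N.hB N.hD hpsi' ?_
      linear_combination hform - e * hpsi - (x - e) ^ 2 * N.h4 - 2 * (x - e) * N.h6 - N.h8
  rcases P with _ | ⟨x₁, y₁, h₁⟩
  · rw [← zero_def, zero_add, zero_sub, pcomp_neg, pcomp_zero]
    left
    exact ⟨⟨0, Or.inl (by simp)⟩, ⟨0, Or.inr (by simp)⟩⟩
  rcases Q with _ | ⟨x₂, y₂, h₂⟩
  · rw [← zero_def, add_zero, sub_zero, pcomp_zero]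
    left
    exact ⟨⟨0, Or.inl (by simp)⟩, ⟨0, Or.inl (by simp)⟩⟩
  by_cases hx : x₁ = x₂
  · subst hx
    rcases X_eq_iff (h₁ := h₁) (h₂ := h₂) |>.mp rfl with hPQ | hPQ
    · rw [← hPQ, sub_self, pcomp_zero, pcomp_some]
      left
      exact ⟨hdouble x₁ y₁ h₁, ⟨0, Or.inl (by simp)⟩⟩
    · have hQ' : some x₁ y₂ h₂ = - some x₁ y₁ h₁ := by rw [hPQ, neg_neg]
      rw [hQ', add_neg_cancel, sub_neg_eq_add, pcomp_zero, pcomp_neg, pcomp_some]
      right
      exact ⟨⟨0, Or.inl (by simp)⟩, hdouble x₁ y₁ h₁⟩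
  · obtain ⟨α, α', β, β', hα, hβ, hadd', hsub', hs, hp⟩ := exists_add_sub h₁ h₂ hx
    rw [hadd', hsub', pcomp_some, pcomp_some, pcomp_some, pcomp_some]
    refine QVal.pair (B := W.b₂ + 12 * e) (D := D) N.hh N.hB N.hD ?_ ?_ ?_
    · linear_combination hs + (x₁ + x₂ - 2 * e) * N.h4 + N.h6
    · linear_combination hp - e * hs - (x₁ - e) * (x₂ - e) * N.h4 -
        (x₁ + x₂ - 2 * e) * N.h6 - N.h8
    · intro h0; exact hx (by linear_combination h0)

open QVal in
/-- `m(kP) ∼ k m(P)`. -/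
theorem pcomp_nsmul (N : NodeData w W e D h) (P : W.Point) (k : ℕ) :
    Rel h (pcomp w e h (k • P)) (k * pcomp w e h P) := by
  induction k using Nat.strong_induction_on with
  | _ k ih =>
    match k with
    | 0 => rw [zero_smul, pcomp_zero]; exact Rel.of_eq (by simp)
    | 1 => rw [one_smul]; exact Rel.of_eq (by simp)
    | k + 2 =>
      have ih1 := ih (k + 1) (by omega)
      have ih0 := ih k (by omega)
      have hp := pcomp_pair N ((k + 1) • P) P
      have e1 : (k + 1) • P + P = (k + 2) • P := by rw [← succ_nsmul]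
      have e2 : (k + 1) • P - P = k • P := by rw [succ_nsmul, add_sub_cancel_right]
      rw [e1, e2] at hp
      set m := pcomp w e h P
      set m1 := pcomp w e h ((k + 1) • P)
      set m0 := pcomp w e h (k • P)
      set m2 := pcomp w e h ((k + 2) • P)
      obtain ⟨j, hj | hj⟩ := ih1
      · -- m1 = (k+1) m + 2jh
        have ea : Rel h (m1 + m) (((k + 2 : ℕ) : ℚ) * m) := by
          refine ⟨j, Or.inl ?_⟩; rw [hj]; push_cast; ring
        have eb : Rel h (m1 - m) ((k : ℚ) * m) := by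
          refine ⟨j, Or.inl ?_⟩; rw [hj]; push_cast; ring
        rcases hp with ⟨hA, hB⟩ | ⟨hA, hB⟩
        · exact hA.trans ea
        · -- m2 ~ k m ~ m0 ~ m1 + m ~ (k+2) m
          exact (hA.trans eb).trans (ih0.symm.trans (hB.trans ea))
      · have ea : Rel h (m1 + m) ((k : ℚ) * m) := by
          refine ⟨j, Or.inr ?_⟩; rw [hj]; push_cast; ring
        have eb : Rel h (m1 - m) (((k + 2 : ℕ) : ℚ) * m) := by
          refine ⟨j, Or.inr ?_⟩; rw [hj]; push_cast; ring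
        rcases hp with ⟨hA, hB⟩ | ⟨hA, hB⟩
        · exact (hA.trans ea).trans (ih0.symm.trans (hB.trans eb))
        · exact hA.trans eb

/-- **Components of torsion points.** -/
theorem pcomp_torsion (N : NodeData w W e D h) {P : W.Point} {n : ℕ} (hP : n • P = 0) :
    ∃ j : ℤ, n * pcomp w e h P = j * (2 * h) := by
  have := pcomp_nsmul N P n
  rw [hP, pcomp_zero] at this
  obtain ⟨j, hj | hj⟩ := this
  · exact ⟨-j, by push_cast; linarith⟩
  · exact ⟨j, by linarith⟩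

omit [DecidableEq K] in
lemma pcomp_nonneg (N : NodeData w W e D h) (P : W.Point) : 0 ≤ pcomp w e h P := by
  rcases P with _ | ⟨x, y, hxy⟩
  · exact le_rfl
  · rw [pcomp_some]
    unfold QVal.comp
    split_ifs
    · exact N.hh.le
    · exact le_max_left _ _

omit [DecidableEq K] in
lemma pcomp_le (N : NodeData w W e D h) (P : W.Point) : pcomp w e h P ≤ h := by
  rcases P with _ | ⟨x, y, hxy⟩
  · exact N.hh.le
  · rw [pcomp_some]
    unfold QVal.comp
    split_ifs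
    · exact le_rfl
    · exact max_le N.hh.le (min_le_right _ _)

/-- For `n` odd, an `n`-torsion point which reduces to the node has
`v(x - e) = (2j/n) h` with `0 < 2j < n`. -/
theorem torsion_val (N : NodeData w W e D h) {n : ℕ} (hn : Odd n) {x y : K}
    {hxy : W.Nonsingular x y} (hP : n • some x y hxy = 0) (hx : w.Gt 0 (x - e)) :
    ∃ j : ℤ, 0 < j ∧ 2 * j < n ∧ w.Is ((2 * j / n : ℚ) * h) (x - e) := by
  obtain ⟨j, hj⟩ := pcomp_torsion N hP
  have h0 := pcomp_nonneg N (some x y hxy)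
  have h1 := pcomp_le N (some x y hxy)
  have hn0 : (0 : ℚ) < n := by
    have := hn.pos
    exact_mod_cast this
  have hh := N.hh
  have hval : pcomp w e h (some x y hxy) = (2 * j / n : ℚ) * h := by
    field_simp
    linarith
  have hj0 : (0 : ℚ) ≤ j := by
    by_contra hcon
    rw [not_le] at hcon
    have : (j : ℚ) * (2 * h) < 0 := by nlinarith
    nlinarith
  have hj1 : (2 * j : ℚ) ≤ n := by
    by_contra hcon
    rw [not_le] at hcon
    have : (n : ℚ) * h < 2 * j * h := by nlinarith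
    nlinarith
  have hj1' : 2 * j ≤ (n : ℤ) := by exact_mod_cast hj1
  have hj2 : 2 * j < (n : ℤ) := by
    rcases lt_or_eq_of_le hj1' with h | h
    · exact h
    · obtain ⟨k, hk⟩ := hn
      omega
  rw [pcomp_some] at hval
  rcases QVal.comp_cases (w := w) (h := h) (x - e) with ⟨r, hr, hx'⟩ | ⟨r, hr, hrh, hx'⟩ | hx'
  · exact absurd (hx'.lt_of_gt hx) (not_lt.mpr hr)
  · rw [QVal.comp_of_is hx' hr.le hrh.le] at hval
    rw [hval] at hx'
    refine ⟨j, ?_, hj2, hx'⟩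
    have hj0' : (0 : ℤ) ≤ j := by exact_mod_cast hj0
    rcases lt_or_eq_of_le hj0' with h | h
    · exact h
    · exfalso
      rw [← h] at hval
      simp at hval
      linarith
  · exfalso
    rw [QVal.comp_of_ge hh hx'] at hval
    have h2 : (2 * j : ℚ) = n := by
      field_simp at hval
      linarith
    have h3 : 2 * j = (n : ℤ) := by exact_mod_cast h2
    omega

end points

end FermatAgent.ECVal
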