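import Fermat.Agent.ECVal.XLine

/-!
# Torsion in the kernel of reduction

Let `v` be a valuation on a field `K` and `W` a Weierstrass curve over `K` with `v(bᵢ) ≤ 1`.
If `P = (x, y)` is killed by an integer `n` with `v(n) = 1` then `v(x) ≤ 1`.
-/

set_option autoImplicit false

namespace FermatAgent.ECVal

open WeierstrassCurve WeierstrassCurve.Affine WeierstrassCurve.Affine.Point

variable {K : Type*} [Field K] [DecidableEq K] {Γ₀ : Type*} [LinearOrderedCommGroupWithZero Γ₀]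
  (v : Valuation K Γ₀) {W : Affine K}

/-- The coordinate `1/(c x)` at infinity. -/
noncomputable def wInf (c : K) : W.Point → K
  | .zero => 0
  | .some x _ _ => (c * x)⁻¹

/-- `P` is near infinity: either `P = 0` or `v(c x(P)) ≥ 1`. -/
def Near (c : K) (P : W.Point) : Prop :=
  ∀ (x y : K) (h : W.Nonsingular x y), P = some x y h → 1 ≤ v (c * x)

lemma wInf_zero (c : K) : wInf c (0 : W.Point) = 0 := rfl

lemma wInf_some (c : K) {x y : K} (h : W.Nonsingular x y) : wInf c (some x y h) = (c * x)⁻¹ := rfl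

lemma wInf_neg (c : K) (P : W.Point) : wInf c (-P) = wInf c P := by
  rcases P with _ | ⟨x, y, h⟩
  · rfl
  · rw [neg_some, wInf_some, wInf_some]

lemma near_zero (c : K) : Near v c (0 : W.Point) := by
  intro x y h h0
  exact absurd h0.symm (some_ne_zero h)

lemma near_some {c : K} {x y : K} {h : W.Nonsingular x y} (hx : 1 ≤ v (c * x)) :
    Near v c (some x y h) := by
  intro x' y' h' h0
  rw [some.injEq] at h0
  rw [← h0.1]; exact hx

lemma near_neg {c : K} {P : W.Point} (hP : Near v c P) : Near v c (-P) := by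
  rcases P with _ | ⟨x, y, h⟩
  · exact near_zero v c
  · rw [neg_some]
    exact near_some v (hP x y h rfl)

lemma near_neg_iff {c : K} {P : W.Point} : Near v c (-P) ↔ Near v c P :=
  ⟨fun h => by simpa using near_neg v h, near_neg v⟩

omit [DecidableEq K] in
/-- purely algebraic step: roots of `u T² - s T + t` are integral, with control of the sum. -/
lemma quad_aux {c r₁ r₂ a wa wb w₁ w₂ : K} (hc : v c < 1) (hr₁ : v r₁ ≤ 1) (hr₂ : v r₂ ≤ 1)
    (hw₁ : v w₁ ≤ 1) (hw₂ : v w₂ ≤ 1) (ha : v a ≤ 1)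
    (hsum : (1 + c * r₂) * (wa + wb) = 2 * (w₁ + w₂) + c * r₁)
    (hprod : (1 + c * r₂) * (wa * wb) = a) :
    v wa ≤ 1 ∧ v (wa + wb - 2 * (w₁ + w₂)) < 1 := by
  have h2 : v (2 : K) ≤ 1 := by
    have := v.map_add 1 1
    rw [one_add_one_eq_two, map_one, max_self] at this
    exact this
  have hcr : v (c * r₂) < 1 := by
    rw [map_mul]
    exact (mul_le_of_le_one_right' hr₂).trans_lt hc
  have hu : v (1 + c * r₂) = 1 := by
    rw [Valuation.map_add_eq_of_lt_left]
    · exact _root_.map_one v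
    · rw [_root_.map_one]; exact hcr
  have hw : v (w₁ + w₂) ≤ 1 := (v.map_add _ _).trans (max_le hw₁ hw₂)
  have hs : v (2 * (w₁ + w₂) + c * r₁) ≤ 1 := by
    refine (v.map_add _ _).trans (max_le ?_ ?_)
    · rw [map_mul]; exact mul_le_one' h2 hw
    · rw [map_mul]; exact mul_le_one' hc.le hr₁
  constructor
  · by_contra hcon
    rw [not_le] at hcon
    have hq : (1 + c * r₂) * wa ^ 2 = (2 * (w₁ + w₂) + c * r₁) * wa - a := by
      linear_combination wa * hsum - hprod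
    have h1 : v ((1 + c * r₂) * wa ^ 2) = v wa ^ 2 := by rw [map_mul, hu, one_mul, map_pow]
    have h3 : v ((2 * (w₁ + w₂) + c * r₁) * wa - a) ≤ v wa := by
      refine (v.map_sub _ _).trans (max_le ?_ (ha.trans hcon.le))
      rw [map_mul]
      exact mul_le_of_le_one_left' hs
    rw [← hq, h1, pow_two] at h3
    have hpos : 0 < v wa := lt_trans zero_lt_one hcon
    have : v wa ≤ 1 := by
      by_contra h5
      rw [not_le] at h5
      have : v wa * 1 < v wa * v wa := by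
        exact mul_lt_mul_of_pos_left h5 hpos
      rw [mul_one] at this
      exact absurd h3 (not_le.mpr this)
    exact absurd this (not_le.mpr hcon)
  · have h4 : (1 + c * r₂) * (wa + wb - 2 * (w₁ + w₂)) = c * (r₁ - 2 * r₂ * (w₁ + w₂)) := by
      linear_combination hsum
    have h5 : v ((1 + c * r₂) * (wa + wb - 2 * (w₁ + w₂))) = v (wa + wb - 2 * (w₁ + w₂)) := by
      rw [map_mul, hu, one_mul]
    rw [← h5, h4, map_mul]
    have h6 : v (r₁ - 2 * r₂ * (w₁ + w₂)) ≤ 1 := by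
      refine (v.map_sub _ _).trans (max_le hr₁ ?_)
      rw [map_mul, map_mul]
      exact mul_le_one' (mul_le_one' h2 hr₂) hw
    exact (mul_le_of_le_one_right' h6).trans_lt hc

omit [DecidableEq K] in
lemma exists_integer_lift {x : K} (hx : v x ≤ 1) : ∃ y : v.integer, (y : K) = x := ⟨⟨x, hx⟩, rfl⟩

/-- The parallelogram law modulo the maximal ideal, near infinity. -/
lemma near_parallelogram {c : K} (hc0 : c ≠ 0) (hc : v c < 1) (hb2 : v W.b₂ ≤ 1)
    (hb4 : v W.b₄ ≤ 1) (hb6 : v W.b₆ ≤ 1) (hb8 : v W.b₈ ≤ 1) {P Q : W.Point}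
    (hP : Near v c P) (hQ : Near v c Q) :
    Near v c (P + Q) ∧ Near v c (P - Q) ∧
      v (wInf c (P + Q) + wInf c (P - Q) - 2 * (wInf c P + wInf c Q)) < 1 := by
  have h01 : (0 : Γ₀) < 1 := zero_lt_one
  have hadd : ∀ {x y : K}, v x ≤ 1 → v y ≤ 1 → v (x + y) ≤ 1 := fun {x y} hx hy =>
    (v.map_add x y).trans (max_le hx hy)
  rcases P with _ | ⟨x₁, y₁, h₁⟩
  · rw [← zero_def, zero_add, zero_sub, wInf_neg, wInf_zero]
    refine ⟨hQ, near_neg v hQ, ?_⟩
    rw [show wInf c Q + wInf c Q - 2 * (0 + wInf c Q) = 0 by ring, _root_.map_zero]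
    exact h01
  rcases Q with _ | ⟨x₂, y₂, h₂⟩
  · rw [← zero_def, add_zero, sub_zero, wInf_zero]
    refine ⟨hP, hP, ?_⟩
    rw [show ∀ t : K, t + t - 2 * (t + 0) = 0 by intro t; ring, _root_.map_zero]
    exact h01
  have hx₁ : 1 ≤ v (c * x₁) := hP x₁ y₁ h₁ rfl
  have hx₂ : 1 ≤ v (c * x₂) := hQ x₂ y₂ h₂ rfl
  have hcx₁ : c * x₁ ≠ 0 := by
    intro h; rw [h, _root_.map_zero] at hx₁; exact absurd hx₁ (not_le.mpr h01)
  have hcx₂ : c * x₂ ≠ 0 := by
    intro h; rw [h, _root_.map_zero] at hx₂; exact absurd hx₂ (not_le.mpr h01)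
  have hw₁ : v (c * x₁)⁻¹ ≤ 1 := by
    rw [map_inv₀]; exact inv_le_one_of_one_le₀ hx₁
  have hw₂ : v (c * x₂)⁻¹ ≤ 1 := by
    rw [map_inv₀]; exact inv_le_one_of_one_le₀ hx₂
  -- lift everything to the valuation ring
  obtain ⟨C, hC⟩ := exists_integer_lift v hc.le
  obtain ⟨B2, hB2⟩ := exists_integer_lift v hb2
  obtain ⟨B4, hB4⟩ := exists_integer_lift v hb4
  obtain ⟨B6, hB6⟩ := exists_integer_lift v hb6
  obtain ⟨B8, hB8⟩ := exists_integer_lift v hb8
  obtain ⟨w₁, hw₁'⟩ := exists_integer_lift v hw₁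
  obtain ⟨w₂, hw₂'⟩ := exists_integer_lift v hw₂
  have e1 : c * x₁ * w₁ = 1 := by rw [hw₁']; exact mul_inv_cancel₀ hcx₁
  have e2 : c * x₂ * w₂ = 1 := by rw [hw₂']; exact mul_inv_cancel₀ hcx₂
  have c2 : ((2 : v.integer) : K) = 2 := rfl
  have c4 : ((4 : v.integer) : K) = 4 := rfl
  -- duplication statement
  have hdouble : ∀ (x y : K) (h : W.Nonsingular x y) (w : v.integer), c * x * w = 1 →
      Near v c (some x y h + some x y h) ∧
        v (wInf c (some x y h + some x y h) - 4 * w) < 1 := by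
    intro x y h w hw
    have hw0 : (w : K) ≠ 0 := by
      intro h0; rw [h0, mul_zero] at hw; exact zero_ne_one hw
    have hpsi := psi2_sq h.1
    -- c^3 w^3 psi^2 = 4 + ...
    set R1 : v.integer := B2 * w + 2 * B4 * C * w ^ 2 + B6 * C ^ 2 * w ^ 3 with hR1
    set R2 : v.integer := -(B4 * C * w ^ 2 + 2 * B6 * C ^ 2 * w ^ 3 + B8 * C ^ 3 * w ^ 4) with hR2
    have hnum : (c * w) ^ 4 * (x ^ 4 - W.b₄ * x ^ 2 - 2 * W.b₆ * x - W.b₈) = 1 + c * R2 := by
      rw [hR2]; push_cast; rw [hC, hB4, hB6, hB8, c2]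
      have : c * w * x = 1 := by linear_combination hw
      calc (c * w) ^ 4 * (x ^ 4 - W.b₄ * x ^ 2 - 2 * W.b₆ * x - W.b₈)
          = (c * w * x) ^ 4 - W.b₄ * (c * w) ^ 2 * (c * w * x) ^ 2
            - 2 * W.b₆ * (c * w) ^ 3 * (c * w * x) - W.b₈ * (c * w) ^ 4 := by ring
        _ = _ := by rw [this]; ring
    have hden : (c * w) ^ 3 * (4 * x ^ 3 + W.b₂ * x ^ 2 + 2 * W.b₄ * x + W.b₆) = 4 + c * R1 := by
      rw [hR1]; push_cast; rw [hC, hB4, hB6, hB2, c2]
      have : c * w * x = 1 := by linear_combination hw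
      calc (c * w) ^ 3 * (4 * x ^ 3 + W.b₂ * x ^ 2 + 2 * W.b₄ * x + W.b₆)
          = 4 * (c * w * x) ^ 3 + W.b₂ * (c * w) * (c * w * x) ^ 2
            + 2 * W.b₄ * (c * w) ^ 2 * (c * w * x) + W.b₆ * (c * w) ^ 3 := by ring
        _ = _ := by rw [this]; ring
    have hR1' : v (R1 : K) ≤ 1 := R1.2
    have hR2' : v (R2 : K) ≤ 1 := R2.2
    have hwv : v (w : K) ≤ 1 := w.2
    have hu : v (1 + c * R2) = 1 := by
      have hcr : v (c * R2) < 1 := by
        rw [map_mul]; exact (mul_le_of_le_one_right' hR2').trans_lt hc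
      rw [Valuation.map_add_eq_of_lt_left]
      · exact _root_.map_one v
      · rw [_root_.map_one]; exact hcr
    rcases double_cases h with ⟨hz, hψ⟩ | ⟨hψ, α, α', hα, hsum, hform⟩
    · rw [hz]
      refine ⟨near_zero v c, ?_⟩
      rw [wInf_zero]
      have h4 : (4 : K) = -(c * R1) := by
        have : (c * (w : K)) ^ 3 * (2 * y + W.a₁ * x + W.a₃) ^ 2 = 4 + c * R1 := by
          rw [hpsi]; exact hden
        rw [hψ] at this
        linear_combination -this
      rw [h4, zero_sub, Valuation.map_neg, map_mul, Valuation.map_neg, map_mul, mul_assoc]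
      exact (mul_le_of_le_one_right' (mul_le_one' hR1' hwv)).trans_lt hc
    · rw [hsum]
      have hα0 : (4 + c * R1) * (c * w) * α = 1 + c * R2 := by
        rw [← hden, ← hnum, ← hform, hpsi]; ring
      have hα1 : α ≠ 0 := by
        intro h0
        rw [h0, mul_zero] at hα0
        rw [← hα0, _root_.map_zero] at hu
        exact zero_ne_one hu
      have hw3 : (1 + c * R2) * wInf c (some α α' hα) = (4 + c * R1) * w := by
        rw [wInf_some, ← hα0]
        field_simp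
      have hle : v (wInf c (some α α' hα)) ≤ 1 := by
        have : v ((1 + c * R2) * wInf c (some α α' hα)) = v (wInf c (some α α' hα)) := by
          rw [map_mul, hu, one_mul]
        rw [← this, hw3]
        have h4 : ((4 + C * R1) * w : v.integer) = ((4 + c * R1) * w : K) := by
          push_cast; rw [hC, c4]
        rw [← h4]
        exact ((4 + C * R1) * w : v.integer).2
      refine ⟨near_some v ?_, ?_⟩
      · rw [wInf_some, map_inv₀] at hle
        have : v (c * α) ≠ 0 := by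
          rw [Valuation.ne_zero_iff]; exact mul_ne_zero hc0 hα1
        exact (inv_le_one₀ (zero_lt_iff.mpr this)).mp hle
      · have h5 : (1 + c * R2) * (wInf c (some α α' hα) - 4 * w) = c * ((R1 - 4 * R2) * w) := by
          linear_combination hw3
        have h6 : v ((1 + c * R2) * (wInf c (some α α' hα) - 4 * w)) =
            v (wInf c (some α α' hα) - 4 * w) := by rw [map_mul, hu, one_mul]
        rw [← h6, h5, map_mul]
        have h7 : v ((R1 - 4 * R2) * w) ≤ 1 := by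
          have h4 : ((R1 - 4 * R2) * w : v.integer) = ((R1 - 4 * R2) * w : K) := by
            push_cast; rfl
          rw [← h4]; exact ((R1 - 4 * R2) * w : v.integer).2
        exact (mul_le_of_le_one_right' h7).trans_lt hc
  by_cases hx : x₁ = x₂
  · have hww : (w₁ : K) = w₂ := by rw [hw₁', hw₂', hx]
    rcases X_eq_iff (h₁ := h₁) (h₂ := h₂) |>.mp hx with hPQ | hPQ
    · rw [← hPQ, sub_self, wInf_zero, wInf_some, add_zero]
      obtain ⟨hn, hd⟩ := hdouble x₁ y₁ h₁ w₁ e1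
      refine ⟨hn, near_zero v c, ?_⟩
      rw [← hw₁']
      rw [show (2 * ((w₁ : K) + w₁)) = 4 * w₁ by ring]
      exact hd
    · have hQ' : some x₂ y₂ h₂ = - some x₁ y₁ h₁ := by rw [hPQ, neg_neg]
      rw [hQ', add_neg_cancel, sub_neg_eq_add, wInf_zero, wInf_neg, wInf_some, zero_add]
      obtain ⟨hn, hd⟩ := hdouble x₁ y₁ h₁ w₁ e1
      refine ⟨near_zero v c, hn, ?_⟩
      rw [← hw₁']
      rw [show (2 * ((w₁ : K) + w₁)) = 4 * w₁ by ring]
      exact hd
  · obtain ⟨α, α', β, β', hα, hβ, hadd', hsub', hs, hp⟩ := exists_add_sub h₁ h₂ hx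
    rw [hadd', hsub']
    set R1 : v.integer := B2 * w₁ * w₂ + B4 * C * w₁ * w₂ * (w₁ + w₂) + B6 * C ^ 2 * (w₁ * w₂) ^ 2
      with hR1
    set R2 : v.integer := -(B4 * C * w₁ * w₂ + B6 * C ^ 2 * w₁ * w₂ * (w₁ + w₂) +
      B8 * C ^ 3 * (w₁ * w₂) ^ 2) with hR2
    have hR1' : v (R1 : K) ≤ 1 := R1.2
    have hR2' : v (R2 : K) ≤ 1 := R2.2
    have hu : v (1 + c * R2) = 1 := by
      have hcr : v (c * R2) < 1 := by
        rw [map_mul]; exact (mul_le_of_le_one_right' hR2').trans_lt hc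
      rw [Valuation.map_add_eq_of_lt_left]
      · exact _root_.map_one v
      · rw [_root_.map_one]; exact hcr
    have e1' : c * w₁ * x₁ = 1 := by linear_combination e1
    have e2' : c * w₂ * x₂ = 1 := by linear_combination e2
    have hdiff : c * w₁ * w₂ * (x₁ - x₂) = w₂ - w₁ := by
      linear_combination (w₂ : K) * e1' - (w₁ : K) * e2'
    have hprod : ((w₁ : K) - w₂) ^ 2 * (c ^ 2 * (α * β)) = 1 + c * R2 := by
      have h3 : ((w₁ : K) - w₂) ^ 2 * (c ^ 2 * (α * β)) =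
          c ^ 4 * w₁ ^ 2 * w₂ ^ 2 * ((x₁ - x₂) ^ 2 * (α * β)) := by
        have : ((w₁ : K) - w₂) ^ 2 = (c * w₁ * w₂ * (x₁ - x₂)) ^ 2 := by rw [hdiff]; ring
        rw [this]; ring
      rw [h3, hp, hR2]
      push_cast
      rw [hC, hB4, hB6, hB8]
      calc c ^ 4 * (w₁ : K) ^ 2 * w₂ ^ 2 * ((x₁ * x₂) ^ 2 - W.b₄ * (x₁ * x₂) - W.b₆ * (x₁ + x₂)
            - W.b₈)
          = (c * w₁ * x₁) ^ 2 * (c * w₂ * x₂) ^ 2
            - W.b₄ * c ^ 2 * w₁ * w₂ * ((c * w₁ * x₁) * (c * w₂ * x₂))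
            - W.b₆ * c ^ 3 * (w₁ * w₂) * (w₂ * (c * w₁ * x₁) + w₁ * (c * w₂ * x₂))
            - W.b₈ * c ^ 4 * (w₁ * w₂) ^ 2 := by ring
        _ = _ := by rw [e1', e2']; ring
    have hsum : ((w₁ : K) - w₂) ^ 2 * (c * (α + β)) = 2 * (w₁ + w₂) + c * R1 := by
      have h3 : c * (((w₁ : K) - w₂) ^ 2 * (c * (α + β))) =
          c ^ 4 * w₁ ^ 2 * w₂ ^ 2 * ((x₁ - x₂) ^ 2 * (α + β)) := by
        have : ((w₁ : K) - w₂) ^ 2 = (c * w₁ * w₂ * (x₁ - x₂)) ^ 2 := by rw [hdiff]; ring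
        rw [this]; ring
      apply mul_left_cancel₀ hc0
      rw [h3, hs, hR1]
      push_cast
      rw [hC, hB4, hB6, hB2]
      calc c ^ 4 * (w₁ : K) ^ 2 * w₂ ^ 2 * (2 * (x₁ * x₂) * (x₁ + x₂) + W.b₂ * (x₁ * x₂) +
            W.b₄ * (x₁ + x₂) + W.b₆)
          = 2 * c * ((c * w₁ * x₁) * (c * w₂ * x₂) * (w₂ * (c * w₁ * x₁) + w₁ * (c * w₂ * x₂)))
            + W.b₂ * c ^ 2 * w₁ * w₂ * ((c * w₁ * x₁) * (c * w₂ * x₂))
            + W.b₄ * c ^ 3 * (w₁ * w₂) * (w₂ * (c * w₁ * x₁) + w₁ * (c * w₂ * x₂))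
            + W.b₆ * c ^ 4 * (w₁ * w₂) ^ 2 := by ring
        _ = _ := by rw [e1', e2']; ring
    have hαβ : α * β ≠ 0 := by
      intro h0
      rw [h0, mul_zero, mul_zero] at hprod
      rw [← hprod, _root_.map_zero] at hu
      exact zero_ne_one hu
    have hα0 : α ≠ 0 := left_ne_zero_of_mul hαβ
    have hβ0 : β ≠ 0 := right_ne_zero_of_mul hαβ
    have hsum' : (1 + c * R2) * ((c * α)⁻¹ + (c * β)⁻¹) = 2 * (w₁ + w₂) + c * R1 := by
      rw [← hprod, ← hsum]
      field_simp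
      ring
    have hprod' : (1 + c * R2) * ((c * α)⁻¹ * (c * β)⁻¹) = ((w₁ : K) - w₂) ^ 2 := by
      rw [← hprod]
      field_simp
    have hsum'' : (1 + c * R2) * ((c * β)⁻¹ + (c * α)⁻¹) = 2 * (w₁ + w₂) + c * R1 := by
      rw [← hsum']; ring
    have hprod'' : (1 + c * R2) * ((c * β)⁻¹ * (c * α)⁻¹) = ((w₁ : K) - w₂) ^ 2 := by
      rw [← hprod']; ring
    have ha : v (((w₁ : K) - w₂) ^ 2) ≤ 1 := by
      have h4 : ((w₁ - w₂) ^ 2 : v.integer) = ((w₁ - w₂) ^ 2 : K) := by push_cast; rfl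
      rw [← h4]; exact ((w₁ - w₂) ^ 2 : v.integer).2
    obtain ⟨hA, hAB⟩ := quad_aux v hc hR1' hR2' w₁.2 w₂.2 ha hsum' hprod'
    obtain ⟨hB, -⟩ := quad_aux v hc hR1' hR2' w₁.2 w₂.2 ha hsum'' hprod''
    refine ⟨near_some v ?_, near_some v ?_, ?_⟩
    · rw [map_inv₀] at hA
      have : v (c * α) ≠ 0 := by
        rw [Valuation.ne_zero_iff]; exact mul_ne_zero hc0 hα0
      exact (inv_le_one₀ (zero_lt_iff.mpr this)).mp hA
    · rw [map_inv₀] at hB
      have : v (c * β) ≠ 0 := by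
        rw [Valuation.ne_zero_iff]; exact mul_ne_zero hc0 hβ0
      exact (inv_le_one₀ (zero_lt_iff.mpr this)).mp hB
    · rw [wInf_some, wInf_some, wInf_some, wInf_some, ← hw₁', ← hw₂']
      exact hAB

/-- Multiplication by `k` is multiplication by `k²` on `1/x`, modulo the maximal ideal. -/
lemma near_nsmul {c : K} (hc0 : c ≠ 0) (hc : v c < 1) (hb2 : v W.b₂ ≤ 1)
    (hb4 : v W.b₄ ≤ 1) (hb6 : v W.b₆ ≤ 1) (hb8 : v W.b₈ ≤ 1) {P : W.Point}
    (hP : Near v c P) (k : ℕ) :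
    Near v c (k • P) ∧ v (wInf c (k • P) - k ^ 2 * wInf c P) < 1 := by
  have h01 : (0 : Γ₀) < 1 := zero_lt_one
  have hnat : ∀ n : ℕ, v (n : K) ≤ 1 := fun n => by
    have : ((n : v.integer) : K) = n := by push_cast; rfl
    rw [← this]; exact (n : v.integer).2
  have hlt : ∀ {x y : K}, v x < 1 → v y < 1 → v (x + y) < 1 := fun {x y} hx hy =>
    (v.map_add x y).trans_lt (max_lt hx hy)
  induction k using Nat.strong_induction_on with
  | _ k ih =>
    match k with
    | 0 =>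
      rw [zero_smul, wInf_zero]
      refine ⟨near_zero v c, ?_⟩
      simp
    | 1 =>
      rw [one_smul]
      refine ⟨hP, ?_⟩
      simp
    | k + 2 =>
      obtain ⟨hN1, hw1⟩ := ih (k + 1) (by omega)
      obtain ⟨hN0, hw0⟩ := ih k (by omega)
      obtain ⟨hA, -, hw⟩ := near_parallelogram v hc0 hc hb2 hb4 hb6 hb8 hN1 hP
      have e1 : (k + 1) • P + P = (k + 2) • P := by
        rw [← succ_nsmul]
      have e2 : (k + 1) • P - P = k • P := by
        rw [succ_nsmul, add_sub_cancel_right]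
      rw [e1] at hA hw
      rw [e2] at hw
      refine ⟨hA, ?_⟩
      have e3 : wInf c ((k + 2) • P) - ((k + 2 : ℕ) : K) ^ 2 * wInf c P =
          (wInf c ((k + 2) • P) + wInf c (k • P) - 2 * (wInf c ((k + 1) • P) + wInf c P)) +
          (2 * (wInf c ((k + 1) • P) - ((k + 1 : ℕ) : K) ^ 2 * wInf c P) +
            -(wInf c (k • P) - (k : K) ^ 2 * wInf c P)) := by
        push_cast; ring
      rw [e3]
      refine hlt hw (hlt ?_ ?_)
      · rw [_root_.map_mul]
        have h2 : v (2 : K) ≤ 1 := by exact_mod_cast hnat 2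
        exact (mul_le_of_le_one_left' h2).trans_lt hw1
      · rw [Valuation.map_neg]; exact hw0

/-- **Torsion prime to the residue characteristic misses the kernel of reduction.** -/
theorem le_one_of_nsmul_eq_zero (hb2 : v W.b₂ ≤ 1)
    (hb4 : v W.b₄ ≤ 1) (hb6 : v W.b₆ ≤ 1) (hb8 : v W.b₈ ≤ 1) {n : ℕ} (hn : v (n : K) = 1)
    {x y : K} {h : W.Nonsingular x y} (h0 : n • some x y h = 0) : v x ≤ 1 := by
  by_contra hcon
  rw [not_le] at hcon
  have hx0 : x ≠ 0 := by
    intro h; rw [h, _root_.map_zero] at hcon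
    exact absurd hcon (not_lt.mpr zero_le_one)
  have hc : v x⁻¹ < 1 := by
    rw [map_inv₀]; exact inv_lt_one_of_one_lt₀ hcon
  have hP : Near v x⁻¹ (some x y h) := near_some v (by
    rw [inv_mul_cancel₀ hx0, _root_.map_one])
  have := (near_nsmul v (inv_ne_zero hx0) hc hb2 hb4 hb6 hb8 hP n).2
  rw [h0, wInf_zero, wInf_some, inv_mul_cancel₀ hx0, inv_one, mul_one, zero_sub,
    Valuation.map_neg, map_pow, hn, one_pow] at this
  exact lt_irrefl _ this

/-- Version with the `aᵢ` integral. -/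
theorem le_one_of_nsmul_eq_zero' (h1 : v W.a₁ ≤ 1) (h2 : v W.a₂ ≤ 1) (h3 : v W.a₃ ≤ 1)
    (h4 : v W.a₄ ≤ 1) (h6 : v W.a₆ ≤ 1) {n : ℕ} (hn : v (n : K) = 1)
    {x y : K} {h : W.Nonsingular x y} (h0 : n • some x y h = 0) : v x ≤ 1 ∧ v y ≤ 1 := by
  obtain ⟨A1, hA1⟩ := exists_integer_lift v h1
  obtain ⟨A2, hA2⟩ := exists_integer_lift v h2
  obtain ⟨A3, hA3⟩ := exists_integer_lift v h3
  obtain ⟨A4, hA4⟩ := exists_integer_lift v h4
  obtain ⟨A6, hA6⟩ := exists_integer_lift v h6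
  have c2 : ((2 : v.integer) : K) = 2 := rfl
  have c4 : ((4 : v.integer) : K) = 4 := rfl
  have hx : v x ≤ 1 := by
    refine le_one_of_nsmul_eq_zero v ?_ ?_ ?_ ?_ hn h0
    · have : W.b₂ = ((A1 ^ 2 + 4 * A2 : v.integer) : K) := by
        push_cast; rw [hA1, hA2, c4]; rfl
      rw [this]; exact (A1 ^ 2 + 4 * A2 : v.integer).2
    · have : W.b₄ = ((2 * A4 + A1 * A3 : v.integer) : K) := by
        push_cast; rw [hA1, hA3, hA4, c2]; rfl
      rw [this]; exact (2 * A4 + A1 * A3 : v.integer).2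
    · have : W.b₆ = ((A3 ^ 2 + 4 * A6 : v.integer) : K) := by
        push_cast; rw [hA3, hA6, c4]; rfl
      rw [this]; exact (A3 ^ 2 + 4 * A6 : v.integer).2
    · have : W.b₈ = ((A1 ^ 2 * A6 + 4 * A2 * A6 - A1 * A3 * A4 + A2 * A3 ^ 2 - A4 ^ 2 :
          v.integer) : K) := by
        push_cast; rw [hA1, hA2, hA3, hA4, hA6, c4]; rfl
      rw [this]
      exact (A1 ^ 2 * A6 + 4 * A2 * A6 - A1 * A3 * A4 + A2 * A3 ^ 2 - A4 ^ 2 : v.integer).2
  refine ⟨hx, ?_⟩
  by_contra hcon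
  rw [not_le] at hcon
  obtain ⟨X, hX⟩ := exists_integer_lift v hx
  have heq := (equation_iff' x y).mp h.1
  have h7 : y ^ 2 = ((X ^ 3 + A2 * X ^ 2 + A4 * X + A6 : v.integer) : K) -
      ((A1 * X + A3 : v.integer) : K) * y := by
    push_cast
    rw [hX, hA1, hA2, hA3, hA4, hA6]
    linear_combination heq
  have h8 : v (y ^ 2) ≤ v y := by
    rw [h7]
    refine (v.map_sub _ _).trans (max_le ?_ ?_)
    · exact le_trans (X ^ 3 + A2 * X ^ 2 + A4 * X + A6 : v.integer).2 hcon.le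
    · rw [_root_.map_mul]
      exact mul_le_of_le_one_left' (A1 * X + A3 : v.integer).2
  rw [map_pow, pow_two] at h8
  have hpos : 0 < v y := lt_trans zero_lt_one hcon
  have h9 : v y * 1 < v y * v y := mul_lt_mul_of_pos_left hcon hpos
  rw [mul_one] at h9
  exact absurd h8 (not_le.mpr h9)

end FermatAgent.ECVal
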