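import Fermat.Agent.ECVal.QbarVal
import Fermat.Agent.ECVal.Component
import Fermat.Agent.ECVal.FormalTorsion

/-!
# Inertia fixes torsion points of integral valuation
-/

set_option autoImplicit false

namespace FermatAgent.ECVal

open WeierstrassCurve WeierstrassCurve.Affine WeierstrassCurve.Affine.Point

section

variable {R : Type*} [CommRing R] [Algebra R ℚ] {K : Type*} [Field K] [Algebra ℚ K]
  [Algebra.IsAlgebraic ℚ K] [DecidableEq K] [Algebra R K] [IsScalarTower R ℚ K]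
  {A : ValuationSubring K} {q : ℕ}

omit [Algebra.IsAlgebraic ℚ K] [DecidableEq K] in
lemma algEquiv_algebraMap_base (σ : K ≃ₐ[ℚ] K) (r : R) :
    σ (algebraMap R K r) = algebraMap R K r := by
  rw [IsScalarTower.algebraMap_apply R ℚ K, AlgEquiv.commutes]

/-- The basic lemma: an `n`-torsion point `P = (x, y)` (with `n` prime to the residue
characteristic `q ≠ 2`) such that `v(ψ₂(P)) = m ≤ v(x - e)` for an integer `m` and `e ∈ ℚ` is
fixed by the inertia group. -/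
theorem inertia_smul_eq_self (hq : q.Prime) (hq2 : q ≠ 2) (hA : A.LiesOverPrime q)
    {W' : Affine R}
    (h1 : (W'⁄K).a₁ ∈ A) (h2 : (W'⁄K).a₂ ∈ A) (h3 : (W'⁄K).a₃ ∈ A) (h4 : (W'⁄K).a₄ ∈ A)
    (h6 : (W'⁄K).a₆ ∈ A) {n : ℕ} (hn : ¬ q ∣ n)
    {σ : K ≃ₐ[ℚ] K} (hσ : σ ∈ A.inertiaSubgroupIn ℚ) {x y : K} {h : (W'⁄K).Nonsingular x y}
    (hP : n • some x y h = 0) {m : ℤ}
    (hm : (valOf hq hA).Is m (2 * y + (W'⁄K).a₁ * x + (W'⁄K).a₃)) {e : ℚ}
    (he : (valOf hq hA).Ge m (x - algebraMap ℚ K e)) : σ • some x y h = some x y h := by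
  have : CharZero K := algebraRat.charZero K
  set w := valOf hq hA with hw
  have hnv : A.valuation (n : K) = 1 := by
    have := val_intCast_eq_one A.valuation hq (lt_one_of_liesOver hA) (n := (n : ℤ))
      (by exact_mod_cast hn)
    exact_mod_cast this
  have h2v : w.Is 0 (2 : K) := by
    have h := valOf_ratCast hq hA (r := 2) two_ne_zero
    have h' : padicValRat q 2 = 0 := by
      have : Fact q.Prime := ⟨hq⟩
      have h2 : ((2 : ℤ) : ℚ) = 2 := by norm_num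
      rw [← h2, padicValRat.of_int]
      norm_cast
      rw [padicValInt.eq_zero_of_not_dvd]
      intro hd
      have : q ∣ 2 := by exact_mod_cast hd
      exact hq2 ((Nat.prime_dvd_prime_iff_eq hq Nat.prime_two).mp this)
    rw [h', map_ofNat] at h
    exact_mod_cast h
  have hv1 := (A.valuation_le_one_iff _).mpr h1
  have hv2 := (A.valuation_le_one_iff _).mpr h2
  have hv3 := (A.valuation_le_one_iff _).mpr h3
  have hv4 := (A.valuation_le_one_iff _).mpr h4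
  have hv6 := (A.valuation_le_one_iff _).mpr h6
  -- integrality of torsion points
  have hint : ∀ (x' y' : K) (h' : (W'⁄K).Nonsingular x' y'), n • some x' y' h' = 0 →
      w.Ge 0 x' := by
    intro x' y' h' h0
    have := (le_one_of_nsmul_eq_zero' A.valuation hv1 hv2 hv3 hv4 hv6 hnv h0).1
    rw [A.valuation_le_one_iff] at this
    exact (valOf_ge_zero_iff hq hA).mpr this
  have ha1 : σ (W'⁄K).a₁ = (W'⁄K).a₁ := algEquiv_algebraMap_base σ _
  have ha3 : σ (W'⁄K).a₃ = (W'⁄K).a₃ := algEquiv_algebraMap_base σ _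
  set ψ : K := 2 * y + (W'⁄K).a₁ * x + (W'⁄K).a₃ with hψ
  have hσψ : σ ψ = 2 * σ y + (W'⁄K).a₁ * σ x + (W'⁄K).a₃ := by
    rw [hψ, map_add, map_add, map_mul, map_mul, ha1, ha3, map_ofNat]
  have hψd : w.Gt m (σ ψ - ψ) := valOf_inertia hq hA hσ hm.ge
  have hxd : w.Gt m (σ x - x) := by
    have := valOf_inertia hq hA hσ he
    rw [map_sub, AlgEquiv.commutes, sub_sub_sub_cancel_right] at this
    exact this
  have hψs : w.Is m (σ ψ + ψ) := by
    have h0 : w.Is m (2 * ψ) := (h2v.mul hm).congr (by ring)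
    have : σ ψ + ψ = 2 * ψ + (σ ψ - ψ) := by ring
    rw [this]
    exact h0.add_gt hψd
  have hns : (W'⁄K).Nonsingular (σ x) (σ y) :=
    (W'.baseChange_nonsingular (f := (σ : K →ₐ[ℚ] K)) σ.injective ..).mpr h
  have hσP : σ • some x y h = some (σ x) (σ y) hns := rfl
  rw [hσP]
  have hσP0 : n • some (σ x) (σ y) hns = 0 := by
    rw [← hσP]
    have := algEquiv_smul_zsmul (W' := W') σ (n : ℤ) (some x y h)
    rw [natCast_zsmul, natCast_zsmul, hP, smul_zero] at this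
    exact this.symm
  by_cases hx : σ x = x
  · rcases X_eq_iff (h₁ := hns) (h₂ := h) |>.mp hx with hPQ | hPQ
    · exact hPQ
    · exfalso
      rw [neg_some, some.injEq] at hPQ
      have hy : σ y = -y - (W'⁄K).a₁ * x - (W'⁄K).a₃ := hPQ.2
      have : σ ψ + ψ = 0 := by
        rw [hσψ, hy, hx, hψ]; ring
      exact hψs.1 this
  · exfalso
    obtain ⟨α, α', hα, hadd, hform⟩ := exists_add_psi (W := W'⁄K) hns
      ((nonsingular_neg ..).mpr h) hx
    have hform' : (σ x - x) ^ 2 * (4 * (α + σ x + x) + (W'⁄K).b₂) = (σ ψ + ψ) ^ 2 := by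
      have e1 : (2 * σ y + (W'⁄K).a₁ * σ x + (W'⁄K).a₃) -
          (2 * (W'⁄K).negY x y + (W'⁄K).a₁ * x + (W'⁄K).a₃) = σ ψ + ψ := by
        rw [hσψ, hψ, negY]; ring
      rw [← e1]
      exact hform
    have hα0 : n • some α α' hα = 0 := by
      rw [← hadd, nsmul_add, hσP0, zero_add, ← neg_some h, smul_neg, hP, _root_.neg_zero]
    have hαint : w.Ge 0 α := hint _ _ _ hα0
    have hxint : w.Ge 0 x := hint _ _ _ hP
    have hσxint : w.Ge 0 (σ x) := hint _ _ _ hσP0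
    have hb2 : w.Ge 0 (W'⁄K).b₂ := by
      have e1 : w.Ge 0 (W'⁄K).a₁ := (valOf_ge_zero_iff hq hA).mpr h1
      have e2 : w.Ge 0 (W'⁄K).a₂ := (valOf_ge_zero_iff hq hA).mpr h2
      exact (e1.sq.mono (by norm_num)).add ((QVal.ge_four.mul e2).mono (by norm_num))
    have hL : w.Gt (2 * m) ((σ x - x) ^ 2 * (4 * (α + σ x + x) + (W'⁄K).b₂)) := by
      have e1 : w.Gt (m + m) ((σ x - x) ^ 2) := by
        rw [pow_two]; exact hxd.mul_ge hxd.ge
      have e2 : w.Ge 0 (4 * (α + σ x + x) + (W'⁄K).b₂) :=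
        ((QVal.ge_four.mul ((hαint.add hσxint).add hxint)).mono (by norm_num)).add hb2
      exact (e1.mul_ge e2).mono (by linarith)
    rw [hform'] at hL
    exact absurd (hψs.sq.lt_of_gt hL) (lt_irrefl _)

omit [Algebra.IsAlgebraic ℚ K] [DecidableEq K] in
/-- `v(2) = 0` for `q ≠ 2`. -/
lemma valOf_natCast_of_not_dvd [Algebra.IsAlgebraic ℚ K] (hq : q.Prime) (hA : A.LiesOverPrime q)
    {n : ℕ} (hn : ¬ q ∣ n) : (valOf hq hA).Is 0 (n : K) := by
  have : CharZero K := algebraRat.charZero K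
  have h1 := val_intCast_eq_one A.valuation hq (lt_one_of_liesOver hA) (n := (n : ℤ))
      (by exact_mod_cast hn)
  rw [Int.cast_natCast] at h1
  have hn0 : (n : K) ≠ 0 := by
    intro h; rw [h, _root_.map_zero] at h1; exact zero_ne_one h1
  have h2 : (valOf hq hA).Ge 0 (n : K) := QVal.ge_natCast n
  have h3 : ¬ (valOf hq hA).Gt 0 (n : K) := by
    rw [valOf_gt_zero_iff, A.mem_nonunits_iff, h1]; exact lt_irrefl _
  rw [QVal.not_gt_iff] at h3
  exact ⟨hn0, le_antisymm h3.2 (h2.resolve_left hn0)⟩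

lemma not_dvd_two (hq : q.Prime) (hq2 : q ≠ 2) : ¬ q ∣ 2 := fun h =>
  hq2 ((Nat.prime_dvd_prime_iff_eq hq Nat.prime_two).mp h)

/-- If `n` is odd, `n • P = 0`, then `2P = 0` implies `P = 0`. -/
lemma eq_zero_of_two_torsion {G : Type*} [AddCommGroup G] {n : ℕ} (hn : Odd n) {P : G}
    (hP : n • P = 0) (h2 : P + P = 0) : P = 0 := by
  obtain ⟨k, rfl⟩ := hn
  rw [add_smul, one_smul, mul_comm, mul_smul, two_smul, h2, smul_zero, zero_add] at hP
  exact hP

/-- **Good reduction**, odd residue characteristic `q`, odd order prime to `q`: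
inertia acts trivially on torsion. -/
theorem inertia_smul_eq_self_of_good (hq : q.Prime) (hq2 : q ≠ 2) (hA : A.LiesOverPrime q)
    {W' : Affine R}
    (h1 : (W'⁄K).a₁ ∈ A) (h2 : (W'⁄K).a₂ ∈ A) (h3 : (W'⁄K).a₃ ∈ A) (h4 : (W'⁄K).a₄ ∈ A)
    (h6 : (W'⁄K).a₆ ∈ A) (hΔ : (W'⁄K).Δ ∉ A.nonunits) {n : ℕ} (hnodd : Odd n) (hn : ¬ q ∣ n)
    {σ : K ≃ₐ[ℚ] K} (hσ : σ ∈ A.inertiaSubgroupIn ℚ) {P : (W'⁄K).Point}
    (hP : n • P = 0) : σ • P = P := by
  rcases P with _ | ⟨x, y, h⟩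
  · rfl
  set w := valOf hq hA with hw
  have hnv : A.valuation (n : K) = 1 := by
    have := val_intCast_eq_one A.valuation hq (lt_one_of_liesOver hA) (n := (n : ℤ))
      (by exact_mod_cast hn)
    exact_mod_cast this
  have hv1 := (A.valuation_le_one_iff _).mpr h1
  have hv2 := (A.valuation_le_one_iff _).mpr h2
  have hv3 := (A.valuation_le_one_iff _).mpr h3
  have hv4 := (A.valuation_le_one_iff _).mpr h4
  have hv6 := (A.valuation_le_one_iff _).mpr h6
  have hint : ∀ (x' y' : K) (h' : (W'⁄K).Nonsingular x' y'), n • some x' y' h' = 0 →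
      x' ∈ A ∧ y' ∈ A := by
    intro x' y' h' h0
    have := (le_one_of_nsmul_eq_zero' A.valuation hv1 hv2 hv3 hv4 hv6 hnv h0)
    rwa [A.valuation_le_one_iff, A.valuation_le_one_iff] at this
  obtain ⟨hx, hy⟩ := hint x y h hP
  obtain ⟨hz, -⟩ | ⟨hψ, α, α', hα, hsum, hform⟩ := double_cases h
  · exact absurd (eq_zero_of_two_torsion hnodd hP hz) (some_ne_zero h)
  have hα0 : n • some α α' hα = 0 := by
    rw [← hsum, smul_add, hP, add_zero]
  obtain ⟨hαA, -⟩ := hint α α' hα hα0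
  -- membership of the `b_i`
  have m2 : (2 : K) ∈ A := by exact_mod_cast natCast_mem A 2
  have m4 : (4 : K) ∈ A := by exact_mod_cast natCast_mem A 4
  have hb2 : (W'⁄K).b₂ ∈ A := A.add_mem _ _ (pow_mem h1 2) (A.mul_mem _ _ m4 h2)
  have hb4 : (W'⁄K).b₄ ∈ A := A.add_mem _ _ (A.mul_mem _ _ m2 h4) (A.mul_mem _ _ h1 h3)
  have hb6 : (W'⁄K).b₆ ∈ A := A.add_mem _ _ (pow_mem h3 2) (A.mul_mem _ _ m4 h6)
  set ψ : K := 2 * y + (W'⁄K).a₁ * x + (W'⁄K).a₃ with hψdef
  have hψA : w.Ge 0 ψ := (valOf_ge_zero_iff hq hA).mpr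
    (A.add_mem _ _ (A.add_mem _ _ (A.mul_mem _ _ m2 hy) (A.mul_mem _ _ h1 hx)) h3)
  have hψ2 := psi2_sq h.1
  rw [← hψdef] at hψ2
  have hψu : ¬ w.Gt 0 ψ := by
    intro hψ0
    have e1 : w.Gt 0 (ψ ^ 2) := by
      rw [pow_two]; exact (hψ0.mul_ge hψ0.ge).mono (by norm_num)
    have e2 : w.Gt 0 (x ^ 4 - (W'⁄K).b₄ * x ^ 2 - 2 * (W'⁄K).b₆ * x - (W'⁄K).b₈) := by
      rw [← hform]
      exact (e1.mul_ge ((valOf_ge_zero_iff hq hA).mpr hαA)).mono (by norm_num)
    rw [hψ2] at e1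
    have key : (W'⁄K).Δ = (-48 * x ^ 2 - 8 * (W'⁄K).b₂ * x + (W'⁄K).b₂ ^ 2 - 32 * (W'⁄K).b₄) *
        (x ^ 4 - (W'⁄K).b₄ * x ^ 2 - 2 * (W'⁄K).b₆ * x - (W'⁄K).b₈) +
        (12 * x ^ 3 - (W'⁄K).b₂ * x ^ 2 - 10 * (W'⁄K).b₄ * x + (W'⁄K).b₂ * (W'⁄K).b₄
          - 27 * (W'⁄K).b₆) *
        (4 * x ^ 3 + (W'⁄K).b₂ * x ^ 2 + 2 * (W'⁄K).b₄ * x + (W'⁄K).b₆) := by
      simp only [WeierstrassCurve.Δ, WeierstrassCurve.b₂, WeierstrassCurve.b₄,
        WeierstrassCurve.b₆, WeierstrassCurve.b₈]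
      ring
    apply hΔ
    rw [← valOf_gt_zero_iff hq hA, key]
    have wx : w.Ge 0 x := (valOf_ge_zero_iff hq hA).mpr hx
    have wb2 : w.Ge 0 (W'⁄K).b₂ := (valOf_ge_zero_iff hq hA).mpr hb2
    have wb4 : w.Ge 0 (W'⁄K).b₄ := (valOf_ge_zero_iff hq hA).mpr hb4
    have wb6 : w.Ge 0 (W'⁄K).b₆ := (valOf_ge_zero_iff hq hA).mpr hb6
    have c1 : (-48 * x ^ 2 - 8 * (W'⁄K).b₂ * x + (W'⁄K).b₂ ^ 2 - 32 * (W'⁄K).b₄) ∈ A := by
      have m48 : (-48 : K) ∈ A := A.neg_mem _ (by exact_mod_cast natCast_mem A 48)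
      have m8 : (8 : K) ∈ A := by exact_mod_cast natCast_mem A 8
      have m32 : (32 : K) ∈ A := by exact_mod_cast natCast_mem A 32
      exact sub_mem (add_mem (sub_mem (mul_mem m48 (pow_mem hx 2)) (mul_mem (mul_mem m8 hb2) hx))
        (pow_mem hb2 2)) (mul_mem m32 hb4)
    have c2 : (12 * x ^ 3 - (W'⁄K).b₂ * x ^ 2 - 10 * (W'⁄K).b₄ * x + (W'⁄K).b₂ * (W'⁄K).b₄
          - 27 * (W'⁄K).b₆) ∈ A := by
      have m12 : (12 : K) ∈ A := by exact_mod_cast natCast_mem A 12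
      have m10 : (10 : K) ∈ A := by exact_mod_cast natCast_mem A 10
      have m27 : (27 : K) ∈ A := by exact_mod_cast natCast_mem A 27
      exact sub_mem (add_mem (sub_mem (sub_mem (mul_mem m12 (pow_mem hx 3))
        (mul_mem hb2 (pow_mem hx 2))) (mul_mem (mul_mem m10 hb4) hx)) (mul_mem hb2 hb4))
        (mul_mem m27 hb6)
    exact ((((valOf_ge_zero_iff hq hA).mpr c1).mul_gt e2).mono (by norm_num)).add
      ((((valOf_ge_zero_iff hq hA).mpr c2).mul_gt e1).mono (by norm_num))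
  have hψ0 : w.Is 0 ψ := by
    rw [QVal.not_gt_iff] at hψu
    exact ⟨hψu.1, le_antisymm hψu.2 (hψA.resolve_left hψu.1)⟩
  refine inertia_smul_eq_self (e := 0) (m := 0) hq hq2 hA h1 h2 h3 h4 h6 hn hσ hP ?_ ?_
  · exact_mod_cast hψ0
  · rw [_root_.map_zero, sub_zero]
    exact_mod_cast (valOf_ge_zero_iff hq hA).mpr hx

/-- **Multiplicative reduction** with a rational `2`-torsion point reducing to the node:
if `n` divides `h = v(D)` (so that `2 n` divides the valuation of the discriminant) then inertia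
acts trivially on the `n`-torsion (`n` odd prime to the odd residue characteristic `q`). -/
theorem inertia_smul_eq_self_of_node (hq : q.Prime) (hq2 : q ≠ 2) (hA : A.LiesOverPrime q)
    {W' : Affine R}
    (h1 : (W'⁄K).a₁ ∈ A) (h2 : (W'⁄K).a₂ ∈ A) (h3 : (W'⁄K).a₃ ∈ A) (h4 : (W'⁄K).a₄ ∈ A)
    (h6 : (W'⁄K).a₆ ∈ A) {n : ℕ} (hnodd : Odd n) (hn : ¬ q ∣ n) {e : ℚ} {D : K} {N : ℕ}
    (hN : NodeData (valOf hq hA) (W'⁄K) (algebraMap ℚ K e) D ((n : ℚ) * N))
    (he : algebraMap ℚ K e ∈ A)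
    {σ : K ≃ₐ[ℚ] K} (hσ : σ ∈ A.inertiaSubgroupIn ℚ) {P : (W'⁄K).Point}
    (hP : n • P = 0) : σ • P = P := by
  rcases P with _ | ⟨x, y, h⟩
  · rfl
  set w := valOf hq hA with hw
  have hnv : A.valuation (n : K) = 1 := by
    have := val_intCast_eq_one A.valuation hq (lt_one_of_liesOver hA) (n := (n : ℤ))
      (by exact_mod_cast hn)
    exact_mod_cast this
  have hv1 := (A.valuation_le_one_iff _).mpr h1
  have hv2 := (A.valuation_le_one_iff _).mpr h2
  have hv3 := (A.valuation_le_one_iff _).mpr h3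
  have hv4 := (A.valuation_le_one_iff _).mpr h4
  have hv6 := (A.valuation_le_one_iff _).mpr h6
  have hint : ∀ (x' y' : K) (h' : (W'⁄K).Nonsingular x' y'), n • some x' y' h' = 0 →
      x' ∈ A ∧ y' ∈ A := by
    intro x' y' h' h0
    have := (le_one_of_nsmul_eq_zero' A.valuation hv1 hv2 hv3 hv4 hv6 hnv h0)
    rwa [A.valuation_le_one_iff, A.valuation_le_one_iff] at this
  obtain ⟨hx, hy⟩ := hint x y h hP
  set x' : K := x - algebraMap ℚ K e with hx'
  have hx'A : w.Ge 0 x' := (valOf_ge_zero_iff hq hA).mpr (sub_mem hx he)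
  set ψ : K := 2 * y + (W'⁄K).a₁ * x + (W'⁄K).a₃ with hψdef
  have hψ2 : ψ ^ 2 = 4 * x' ^ 3 +
        ((W'⁄K).b₂ + 12 * algebraMap ℚ K e) * x' ^ 2 + 4 * D * x' := by
    rw [hψdef, psi2_sq h.1]
    linear_combination 2 * x' * hN.h4 + hN.h6
  have h2v : w.Is 0 (2 : K) := by
    exact_mod_cast valOf_natCast_of_not_dvd hq hA (not_dvd_two hq hq2)
  have hn0 : (0 : ℚ) < n := by exact_mod_cast hnodd.pos
  by_cases hx0 : w.Gt 0 x'
  · obtain ⟨j, hj0, hj1, hval⟩ := torsion_val hN hnodd hP hx0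
    have hval' : w.Is ((2 * j * N : ℤ) : ℚ) x' := hval.congr (by
      push_cast; field_simp)
    have hNpos : (0 : ℚ) < (2 * j * N : ℤ) := hval'.lt_of_gt hx0
    have hlt : ((2 * j * N : ℤ) : ℚ) < n * N := by
      have hN' : (0 : ℚ) < N := by
        have := hN.hh
        by_contra hcon
        have h0 : (N : ℚ) = 0 := le_antisymm (not_lt.mp hcon) (Nat.cast_nonneg N)
        rw [h0, mul_zero] at this
        exact lt_irrefl _ this
      have hj1' : (2 * j : ℚ) < n := by exact_mod_cast hj1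
      push_cast
      nlinarith
    set m : ℤ := 2 * j * N with hm
    have hψm : w.Is m ψ := by
      have e1 : w.Is (2 * m) (ψ ^ 2) := by
        rw [hψ2]
        have c3 : w.Ge (3 * m) (x' ^ 3) := by exact_mod_cast hval'.ge.pow 3
        refine (QVal.Gt.add_is ((QVal.ge_four.mul c3).gt ?_)
          ((hN.hB.mul hval'.sq).congr ?_)).add_gt
          (((QVal.ge_four.mul hN.hD.ge).mul hval'.ge).gt ?_) <;> linarith
      have hψ0 : ψ ≠ 0 := by
        intro h0; rw [h0] at e1; exact e1.1 (by ring)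
      have e2 := (QVal.Is.of_ne (w := w) hψ0).sq
      have e3 := e1.unique e2
      exact ⟨hψ0, by linarith⟩
    exact inertia_smul_eq_self hq hq2 hA h1 h2 h3 h4 h6 hn hσ hP hψm hval'.ge
  · have hx00 : w.Is 0 x' := by
      rw [QVal.not_gt_iff] at hx0
      exact ⟨hx0.1, le_antisymm hx0.2 (hx'A.resolve_left hx0.1)⟩
    obtain ⟨hz, -⟩ | ⟨hψ, α, α', hα, hsum, hform⟩ := double_cases h
    · exact absurd (eq_zero_of_two_torsion hnodd hP hz) (some_ne_zero h)
    have hα0 : n • some α α' hα = 0 := by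
      rw [← hsum, smul_add, hP, add_zero]
    obtain ⟨hαA, -⟩ := hint α α' hα hα0
    have hform' : ψ ^ 2 * (α - algebraMap ℚ K e) = (x' ^ 2 - D) ^ 2 := by
      have hpsi := psi2_sq h.1
      linear_combination hform - (algebraMap ℚ K e) * hpsi - (x') ^ 2 * hN.h4
        - 2 * x' * hN.h6 - hN.h8
    have m2 : (2 : K) ∈ A := by exact_mod_cast natCast_mem A 2
    have hψA : w.Ge 0 ψ := (valOf_ge_zero_iff hq hA).mpr
      (A.add_mem _ _ (A.add_mem _ _ (A.mul_mem _ _ m2 hy) (A.mul_mem _ _ h1 hx)) h3)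
    have hψu : ¬ w.Gt 0 ψ := by
      intro hψ0
      have e1 : w.Gt 0 (ψ ^ 2) := by
        rw [pow_two]; exact (hψ0.mul_ge hψ0.ge).mono (by norm_num)
      have e2 : w.Gt 0 ((x' ^ 2 - D) ^ 2) := by
        rw [← hform']
        exact (e1.mul_ge ((valOf_ge_zero_iff hq hA).mpr (sub_mem hαA he))).mono (by norm_num)
      have e3 : w.Is (2 * (2 * 0)) ((x' ^ 2 - D) ^ 2) :=
        (hx00.sq.sub_gt (hN.hD.gt (by have := hN.hh; linarith))).sq
      have := e3.lt_of_gt e2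
      norm_num at this
    have hψ0 : w.Is 0 ψ := by
      rw [QVal.not_gt_iff] at hψu
      exact ⟨hψu.1, le_antisymm hψu.2 (hψA.resolve_left hψu.1)⟩
    refine inertia_smul_eq_self (e := e) (m := 0) hq hq2 hA h1 h2 h3 h4 h6 hn hσ hP ?_ ?_
    · exact_mod_cast hψ0
    · exact_mod_cast hx'A

end

end FermatAgent.ECVal
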