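import Mathlib

/-!
# Formulas on the `x`-line of a Weierstrass curve

For two affine points `P, Q` with `x(P) ≠ x(Q)` we compute the sum and the product of `x(P+Q)` and
`x(P-Q)`, and the duplication formula.
-/

set_option autoImplicit false

namespace FermatAgent.ECVal

open WeierstrassCurve WeierstrassCurve.Affine WeierstrassCurve.Affine.Point

variable {F : Type*} [Field F] [DecidableEq F] {W : Affine F}

/-- `x(P+Q) + x(P-Q)`. -/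
lemma addX_add_addX_negY {x₁ x₂ y₁ y₂ : F} (h₁ : W.Equation x₁ y₁) (h₂ : W.Equation x₂ y₂)
    (hx : x₁ ≠ x₂) :
    (x₁ - x₂) ^ 2 * (W.addX x₁ x₂ (W.slope x₁ x₂ y₁ y₂) +
      W.addX x₁ x₂ (W.slope x₁ x₂ y₁ (W.negY x₂ y₂))) =
      2 * (x₁ * x₂) * (x₁ + x₂) + W.b₂ * (x₁ * x₂) + W.b₄ * (x₁ + x₂) + W.b₆ := by
  have hx' : x₁ - x₂ ≠ 0 := sub_ne_zero.mpr hx
  rw [equation_iff'] at h₁ h₂
  simp only [slope_of_X_ne hx, addX, negY, WeierstrassCurve.b₂, WeierstrassCurve.b₄,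
    WeierstrassCurve.b₆]
  field_simp
  linear_combination 2 * h₁ + 2 * h₂

private lemma prod_aux (a1 a2 a3 a4 a6 x1 x2 y1 y2 : F)
    (h₁ : y1^2 + a1*x1*y1 + a3*y1 - (x1^3 + a2*x1^2+a4*x1+a6) = 0)
    (h₂ : y2^2 + a1*x2*y2 + a3*y2 - (x2^3 + a2*x2^2+a4*x2+a6) = 0) :
    ((y1-y2)^2 + a1*(y1-y2)*(x1-x2) - (a2+x1+x2)*(x1-x2)^2) *
    ((y1-(-y2-a1*x2-a3))^2 + a1*(y1-(-y2-a1*x2-a3))*(x1-x2) - (a2+x1+x2)*(x1-x2)^2) =
    (x1-x2)^2 * ((x1*x2)^2 - (2*a4+a1*a3)*(x1*x2) - (a3^2+4*a6)*(x1+x2) -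
      (a1^2*a6+4*a2*a6-a1*a3*a4+a2*a3^2-a4^2)) := by
  grind

/-- `x(P+Q) * x(P-Q)`. -/
lemma addX_mul_addX_negY {x₁ x₂ y₁ y₂ : F} (h₁ : W.Equation x₁ y₁) (h₂ : W.Equation x₂ y₂)
    (hx : x₁ ≠ x₂) :
    (x₁ - x₂) ^ 2 * (W.addX x₁ x₂ (W.slope x₁ x₂ y₁ y₂) *
      W.addX x₁ x₂ (W.slope x₁ x₂ y₁ (W.negY x₂ y₂))) =
      (x₁ * x₂) ^ 2 - W.b₄ * (x₁ * x₂) - W.b₆ * (x₁ + x₂) - W.b₈ := by
  have hx' : x₁ - x₂ ≠ 0 := sub_ne_zero.mpr hx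
  rw [equation_iff'] at h₁ h₂
  have key := prod_aux W.a₁ W.a₂ W.a₃ W.a₄ W.a₆ x₁ x₂ y₁ y₂ h₁ h₂
  have e1 : (x₁ - x₂) ^ 2 * W.addX x₁ x₂ (W.slope x₁ x₂ y₁ y₂) =
      (y₁-y₂)^2 + W.a₁*(y₁-y₂)*(x₁-x₂) - (W.a₂+x₁+x₂)*(x₁-x₂)^2 := by
    simp only [slope_of_X_ne hx, addX]
    field_simp
    ring
  have e2 : (x₁ - x₂) ^ 2 * W.addX x₁ x₂ (W.slope x₁ x₂ y₁ (W.negY x₂ y₂)) =
      (y₁-(-y₂-W.a₁*x₂-W.a₃))^2 + W.a₁*(y₁-(-y₂-W.a₁*x₂-W.a₃))*(x₁-x₂)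
        - (W.a₂+x₁+x₂)*(x₁-x₂)^2 := by
    simp only [slope_of_X_ne hx, addX, negY]
    field_simp
    ring
  rw [← e1, ← e2] at key
  have h2 : (x₁ - x₂) ^ 2 ≠ 0 := pow_ne_zero _ hx'
  apply mul_left_cancel₀ h2
  simp only [WeierstrassCurve.b₄, WeierstrassCurve.b₆, WeierstrassCurve.b₈]
  linear_combination key

private lemma dup_aux (a1 a2 a3 a4 a6 x y : F)
    (h : y^2 + a1*x*y + a3*y - (x^3 + a2*x^2+a4*x+a6) = 0) :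
    (2*y+a1*x+a3)^2 = 4*x^3 + (a1^2+4*a2)*x^2 + 2*(2*a4+a1*a3)*x + (a3^2+4*a6) := by
  linear_combination 4 * h

private lemma dup_aux2 (a1 a2 a3 a4 a6 x y : F)
    (h : y^2 + a1*x*y + a3*y - (x^3 + a2*x^2+a4*x+a6) = 0) :
    (3*x^2+2*a2*x+a4-a1*y)^2 + a1*(3*x^2+2*a2*x+a4-a1*y)*(2*y+a1*x+a3) -
      (a2+2*x)*(2*y+a1*x+a3)^2 = x^4 - (2*a4+a1*a3)*x^2 - 2*(a3^2+4*a6)*x -
      (a1^2*a6+4*a2*a6-a1*a3*a4+a2*a3^2-a4^2) := by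
  grind

/-- the square of `ψ₂ = 2y+a₁x+a₃`. -/
lemma psi2_sq {x y : F} (h : W.Equation x y) :
    (2 * y + W.a₁ * x + W.a₃) ^ 2 = 4 * x ^ 3 + W.b₂ * x ^ 2 + 2 * W.b₄ * x + W.b₆ := by
  rw [equation_iff'] at h
  simp only [WeierstrassCurve.b₂, WeierstrassCurve.b₄, WeierstrassCurve.b₆]
  linear_combination 4 * h

lemma dup_X {x y : F} (h : W.Equation x y) (hy : y ≠ W.negY x y) :
    (2 * y + W.a₁ * x + W.a₃) ^ 2 * W.addX x x (W.slope x x y y) =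
      x ^ 4 - W.b₄ * x ^ 2 - 2 * W.b₆ * x - W.b₈ := by
  rw [equation_iff'] at h
  have key := dup_aux2 W.a₁ W.a₂ W.a₃ W.a₄ W.a₆ x y h
  have hy' : 2 * y + W.a₁ * x + W.a₃ ≠ 0 := by
    intro h0
    apply hy
    rw [negY]
    linear_combination h0
  have hy'' : y - W.negY x y = 2 * y + W.a₁ * x + W.a₃ := by
    rw [negY]; ring
  rw [slope_of_Y_ne rfl hy, hy'', addX]
  simp only [WeierstrassCurve.b₄, WeierstrassCurve.b₆, WeierstrassCurve.b₈]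
  field_simp
  linear_combination key

/-- Points version: for two affine points with distinct `x`-coordinates, `P+Q` and `P-Q` are affine
and their `x`-coordinates `α, β` satisfy the sum and product formulas. -/
lemma exists_add_sub {x₁ x₂ y₁ y₂ : F} (h₁ : W.Nonsingular x₁ y₁) (h₂ : W.Nonsingular x₂ y₂)
    (hx : x₁ ≠ x₂) :
    ∃ (α α' β β' : F) (hα : W.Nonsingular α α') (hβ : W.Nonsingular β β'),
      some x₁ y₁ h₁ + some x₂ y₂ h₂ = some α α' hα ∧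
      some x₁ y₁ h₁ - some x₂ y₂ h₂ = some β β' hβ ∧
      (x₁ - x₂) ^ 2 * (α + β) =
        2 * (x₁ * x₂) * (x₁ + x₂) + W.b₂ * (x₁ * x₂) + W.b₄ * (x₁ + x₂) + W.b₆ ∧
      (x₁ - x₂) ^ 2 * (α * β) =
        (x₁ * x₂) ^ 2 - W.b₄ * (x₁ * x₂) - W.b₆ * (x₁ + x₂) - W.b₈ := by
  refine ⟨_, _, _, _, nonsingular_add h₁ h₂ (fun h => hx h.1),
    nonsingular_add h₁ ((nonsingular_neg ..).mpr h₂) (fun h => hx h.1), ?_, ?_,
    addX_add_addX_negY h₁.1 h₂.1 hx, addX_mul_addX_negY h₁.1 h₂.1 hx⟩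
  · exact add_of_X_ne hx
  · rw [sub_eq_add_neg, neg_some]
    exact add_of_X_ne hx

/-- Points version of the duplication formula. -/
lemma double_cases {x y : F} (h : W.Nonsingular x y) :
    (some x y h + some x y h = 0 ∧ 2 * y + W.a₁ * x + W.a₃ = 0) ∨
    (2 * y + W.a₁ * x + W.a₃ ≠ 0 ∧ ∃ (α α' : F) (hα : W.Nonsingular α α'),
      some x y h + some x y h = some α α' hα ∧
      (2 * y + W.a₁ * x + W.a₃) ^ 2 * α = x ^ 4 - W.b₄ * x ^ 2 - 2 * W.b₆ * x - W.b₈) := by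
  by_cases hy : y = W.negY x y
  · left
    refine ⟨add_self_of_Y_eq hy, ?_⟩
    rw [negY] at hy
    linear_combination hy
  · right
    refine ⟨?_, _, _, nonsingular_add h h fun hxy => hy hxy.right, add_self_of_Y_ne hy,
      dup_X h.1 hy⟩
    intro h0
    apply hy
    rw [negY]
    linear_combination h0

/-- General addition: `4 (x(P+Q) + x(P) + x(Q)) + b₂ = ((ψ₂(P) - ψ₂(Q))/(x(P) - x(Q)))²`. -/
lemma exists_add_psi {x₁ x₂ y₁ y₂ : F} (h₁ : W.Nonsingular x₁ y₁) (h₂ : W.Nonsingular x₂ y₂)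
    (hx : x₁ ≠ x₂) :
    ∃ (α α' : F) (hα : W.Nonsingular α α'),
      some x₁ y₁ h₁ + some x₂ y₂ h₂ = some α α' hα ∧
      (x₁ - x₂) ^ 2 * (4 * (α + x₁ + x₂) + W.b₂) =
        ((2 * y₁ + W.a₁ * x₁ + W.a₃) - (2 * y₂ + W.a₁ * x₂ + W.a₃)) ^ 2 := by
  refine ⟨_, _, nonsingular_add h₁ h₂ (fun h => hx h.1), add_of_X_ne hx, ?_⟩
  have hx' : x₁ - x₂ ≠ 0 := sub_ne_zero.mpr hx
  simp only [slope_of_X_ne hx, addX, WeierstrassCurve.b₂]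
  field_simp
  ring

end FermatAgent.ECVal
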